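/-
GATE-E (S59 pre-work) / node E8.5 DELIGNE-MODP, leaf (K) step 1 (helper65; claims row
GE8-5-DELIGNE-K; route of helper25, board 6853 step (2)).

**The front half of `GJ/S18/Front.eq_zero_of_core` as an `∃`-statement.**

`eq_zero_of_core` reduces the injectivity of the reduction map on `m`-torsion to a CORE statement
about a divisor `D'` with `m • D' = div (Y1 / Y2)`, `Y1 Y2` integral with EQUAL NONZERO reductions.
The first half of its proof never uses the CORE hypothesis (nor `ℓ ∤ m`): it PRODUCES `D'`, `Y1`,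
`Y2` from a class `z = [D0]` with `m • z = 0` and `red z = 0`.  Here that half is re-exported:

* `exists_core_rep` (generic setting `L, A, π, N, r`);
* `exists_core_rep_modL` (with the binders of `reductionModL`, `z : JZero N`).

So: every class of `ker (red) ∩ J₀(N)[m]` is `[D']` with `m • D' = div (Y1 / Y2)`,
`Y1 ≡ Y2 ≢ 0 mod 𝔪_A` coefficientwise — a Kummer generator with constant reduction `1`.
-/
import Fermat.Agent.GJ.S18.Front

set_option autoImplicit false

noncomputable section

open HahnSeries IntermediateField AlgebraicCurve ModularCurve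

namespace Fermat.Agent.GE8.RaiseP.Deligne.KerFront

open Fermat.Agent.GJ.S18.Front

section Generic

variable {L : Type*} [Field L] [Algebra ℚ L] {A : ValuationSubring L}
variable {k : Type*} [Field k] {π : A →+* k} {N : ℕ}
variable {r : Place L (laurentBaseChange L (modularFunctionFieldFull N)) →
  Place k (modularFunctionFieldFullC k N)}

/-- **the front half of `eq_zero_of_core`**: a degree-zero divisor `D0` whose class is killed by
`m` and by the reduction map is linearly equivalent to a divisor `D'` with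
`m • D' = div (Y1 / Y2)`, `Y1 Y2` integral with equal nonzero reductions (and `r_* D' = 0`). -/
theorem exists_core_rep (hr : IsPlaceReductionAlong A π N r)
    (hgen : PrincipalGeneratedByIntegral A π N) (hπ : Function.Surjective π)
    (hPD : HasPrincipalDivisors L (laurentBaseChange L (modularFunctionFieldFull N)))
    (hconstk : ∀ g : modularFunctionFieldFullC k N, g ≠ 0 →
      (∀ Q : Place k (modularFunctionFieldFullC k N), Q.ord g = 0) →
        ∃ c : k, g = algebraMap k (modularFunctionFieldFullC k N) c)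
    (m : ℕ)
    (D0 : Divisor.degZero (K := L) (F := laurentBaseChange L (modularFunctionFieldFull N)))
    (hmz : m • (Pic0.mk D0 : Pic0 L (laurentBaseChange L (modularFunctionFieldFull N))) = 0)
    (hz : reductionPic0Along r hr hgen (Pic0.mk D0) = 0) :
    ∃ (D' : Divisor L (laurentBaseChange L (modularFunctionFieldFull N)))
      (Y1 Y2 : LaurentSeries A) (h1 : Y1 ∈ IntRing A π N) (h2 : Y2 ∈ IntRing A π N),
      coeffMap π Y1 = coeffMap π Y2 ∧ coeffMap π Y1 ≠ 0 ∧ Divisor.degree D' = 0 ∧
      (∀ P, (m • D') P = P.ord (elL Y1 h1 / elL Y2 h2)) ∧ Finsupp.mapDomain r D' = 0 ∧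
      (D0 : Divisor L (laurentBaseChange L (modularFunctionFieldFull N))) - D' ∈
        Divisor.principal (K := L) (F := laurentBaseChange L (modularFunctionFieldFull N)) := by
  classical
  -- `m • D0` is principal
  have h1 : ((m • D0 : Divisor.degZero (K := L)
      (F := laurentBaseChange L (modularFunctionFieldFull N))) :
      Divisor L (laurentBaseChange L (modularFunctionFieldFull N))) ∈
        Divisor.principal (K := L) (F := laurentBaseChange L (modularFunctionFieldFull N)) := by
    have h : Pic0.mk (m • D0) = 0 := by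
      rw [← hmz]; rfl
    exact AddSubgroup.mem_addSubgroupOf.mp ((QuotientAddGroup.eq_zero_iff (m • D0)).mp h)
  rw [AddSubgroupClass.coe_nsmul] at h1
  -- `r_* D0` is principal
  rw [reductionPic0Along_mk] at hz
  have h2 := (QuotientAddGroup.eq_zero_iff _).mp hz
  rw [AddSubgroup.mem_addSubgroupOf, coe_reductionDegZeroAlong] at h2
  obtain ⟨g, hg0, hg⟩ := h2
  -- lift `g`
  obtain ⟨y1, hy1, y2, hy2, hne2, he⟩ := exists_lift (A := A) hπ g.2
  have hgs : (g : LaurentSeries k) ≠ 0 := fun h => hg0 (Subtype.ext h)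
  have hne1 : coeffMap π y1 ≠ 0 := by rw [he]; exact mul_ne_zero hgs hne2
  have hek : elk y1 hy1 = g * elk y2 hy2 := Subtype.ext he
  obtain ⟨E1, hE1, hE1deg⟩ := hPD.exists_divisor (elL y1 hy1) (elL_ne_zero hy1 hne1)
  obtain ⟨E2, hE2, hE2deg⟩ := hPD.exists_divisor (elL y2 hy2) (elL_ne_zero hy2 hne2)
  have hE1p : E1 ∈ Divisor.principal (K := L)
      (F := laurentBaseChange L (modularFunctionFieldFull N)) :=
    ⟨elL y1 hy1, elL_ne_zero hy1 hne1, hE1⟩
  have hE2p : E2 ∈ Divisor.principal (K := L)
      (F := laurentBaseChange L (modularFunctionFieldFull N)) :=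
    ⟨elL y2 hy2, elL_ne_zero hy2 hne2, hE2⟩
  set D' : Divisor L (laurentBaseChange L (modularFunctionFieldFull N)) :=
    (D0 : Divisor L (laurentBaseChange L (modularFunctionFieldFull N))) - (E1 - E2) with hD'
  have hdeg : Divisor.degree D' = 0 := by
    have hD0 : Divisor.degree (D0 : Divisor L (laurentBaseChange L (modularFunctionFieldFull N)))
        = 0 := D0.2
    rw [hD', map_sub, map_sub, hD0, hE1deg, hE2deg]; simp
  have hrD' : Finsupp.mapDomain r D' = 0 := by
    ext Q
    rw [hD', Finsupp.mapDomain_sub, Finsupp.mapDomain_sub, Finsupp.sub_apply, Finsupp.sub_apply,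
      hg Q, mapDomain_eq_ord hr hy1 hne1 E1 hE1 Q, mapDomain_eq_ord hr hy2 hne2 E2 hE2 Q, hek,
      Q.ord_mul hg0 (elk_ne_zero hy2 hne2), Finsupp.zero_apply]
    ring
  -- `m • D'` is principal, hence generated by integral principal divisors
  have hmD' : m • D' ∈ Divisor.principal (K := L)
      (F := laurentBaseChange L (modularFunctionFieldFull N)) := by
    rw [hD', smul_sub]
    exact sub_mem h1 (nsmul_mem (sub_mem hE1p hE2p) m)
  obtain ⟨Y1, hY1, Y2, hY2, hnY1, hnY2, hY⟩ :=
    isIntQuot_of_mem_closure (A := A) (π := π) (hgen hmD')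
  obtain ⟨G1, hG1, -⟩ := hPD.exists_divisor (elL Y1 hY1) (elL_ne_zero hY1 hnY1)
  obtain ⟨G2, hG2, -⟩ := hPD.exists_divisor (elL Y2 hY2) (elL_ne_zero hY2 hnY2)
  have hmDG : m • D' = G1 - G2 := by
    ext P
    rw [hY P, Finsupp.sub_apply, hG1 P, hG2 P]
  -- the reductions of `Y1`, `Y2` have the same divisor
  have hord : ∀ Q : Place k (modularFunctionFieldFullC k N),
      Q.ord (elk Y1 hY1) = Q.ord (elk Y2 hY2) := by
    intro Q
    have h0 : Finsupp.mapDomain r (m • D') = 0 := by
      rw [Finsupp.mapDomain_smul, hrD', smul_zero]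
    rw [hmDG, Finsupp.mapDomain_sub] at h0
    have h0Q := DFunLike.congr_fun h0 Q
    rw [Finsupp.sub_apply, mapDomain_eq_ord hr hY1 hnY1 G1 hG1 Q,
      mapDomain_eq_ord hr hY2 hnY2 G2 hG2 Q, Finsupp.zero_apply] at h0Q
    exact sub_eq_zero.mp h0Q
  -- hence their quotient is a constant
  obtain ⟨c, hc⟩ := hconstk (elk Y1 hY1 / elk Y2 hY2)
    (div_ne_zero (elk_ne_zero hY1 hnY1) (elk_ne_zero hY2 hnY2))
    (fun Q => by rw [ord_div Q (elk_ne_zero hY1 hnY1) (elk_ne_zero hY2 hnY2), hord Q, sub_self])
  have hc0 : c ≠ 0 := by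
    rintro rfl
    rw [map_zero] at hc
    exact div_ne_zero (elk_ne_zero hY1 hnY1) (elk_ne_zero hY2 hnY2) hc
  obtain ⟨a, rfl⟩ := hπ c
  have ha0 : (a : L) ≠ 0 := by
    intro h
    have : a = 0 := Subtype.ext h
    exact hc0 (by rw [this, map_zero])
  -- rescale `Y2`
  have hY2' : HahnSeries.single (0 : ℤ) a * Y2 ∈ IntRing A π N :=
    mul_mem (single_mem_intRing a) hY2
  have hredeq : coeffMap π Y1 = coeffMap π (HahnSeries.single (0 : ℤ) a * Y2) := by
    have h3 : elk Y1 hY1 = algebraMap k (modularFunctionFieldFullC k N) (π a) * elk Y2 hY2 := by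
      rw [← hc, div_mul_cancel₀ _ (elk_ne_zero hY2 hnY2)]
    have h4 := congrArg Subtype.val h3
    rw [map_mul, coeffMap_single, ← algebraMap_laurentSeries_eq_single]
    exact h4
  refine ⟨D', Y1, HahnSeries.single (0 : ℤ) a * Y2, hY1, hY2', hredeq, hnY1, hdeg, fun P => ?_,
    hrD', ?_⟩
  · have hne2' : elL (HahnSeries.single (0 : ℤ) a * Y2) hY2' ≠ 0 := by
      rw [elL_mul (single_mem_intRing a) hY2, elL_single]
      exact mul_ne_zero ((map_ne_zero _).mpr ha0) (elL_ne_zero hY2 hnY2)
    rw [ord_div P (elL_ne_zero hY1 hnY1) hne2', hY P, elL_mul (single_mem_intRing a) hY2,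
      elL_single, P.ord_mul ((map_ne_zero _).mpr ha0) (elL_ne_zero hY2 hnY2),
      ord_algebraMap_eq_zero P ha0, zero_add]
  · have : (D0 : Divisor L (laurentBaseChange L (modularFunctionFieldFull N))) - D' = E1 - E2 := by
      rw [hD']; abel
    rw [this]
    exact sub_mem hE1p hE2p

end Generic

section Frozen

set_option synthInstance.maxHeartbeats 400000

/-- **the front half with the binders of `reductionModL`**: every `z ∈ J₀(N)(ℚ̄)` with `m • z = 0`
and `red_A z = 0` is the class of a degree-zero divisor `D'` with `m • D' = div (Y1 / Y2)`, `Y1 Y2`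
integral with equal nonzero reductions. -/
theorem exists_core_rep_modL (N : ℕ) (A : ValuationSubring (AlgebraicClosure ℚ))
    (h : ModularCurve.ReductionInputsModL A N)
    (hPD : HasPrincipalDivisors (AlgebraicClosure ℚ) (modularFunctionFieldBar N))
    (hconstk : ∀ g : modularFunctionFieldFullC (IsLocalRing.ResidueField A) N, g ≠ 0 →
      (∀ Q : Place (IsLocalRing.ResidueField A)
        (modularFunctionFieldFullC (IsLocalRing.ResidueField A) N), Q.ord g = 0) →
        ∃ c : IsLocalRing.ResidueField A,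
          g = algebraMap (IsLocalRing.ResidueField A)
            (modularFunctionFieldFullC (IsLocalRing.ResidueField A) N) c)
    (m : ℕ) (z : ModularCurve.JZero N) (hmz : m • z = 0)
    (hz : ModularCurve.reductionModL A N z = 0) :
    ∃ (D' : Divisor.degZero (K := AlgebraicClosure ℚ) (F := modularFunctionFieldBar N))
      (Y1 Y2 : LaurentSeries A) (h1 : Y1 ∈ IntRing A (IsLocalRing.residue A) N)
      (h2 : Y2 ∈ IntRing A (IsLocalRing.residue A) N),
      coeffMap (IsLocalRing.residue A) Y1 = coeffMap (IsLocalRing.residue A) Y2 ∧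
      coeffMap (IsLocalRing.residue A) Y1 ≠ 0 ∧
      (∀ P : Place (AlgebraicClosure ℚ) (modularFunctionFieldBar N),
        (m : ℤ) * (D' : Divisor (AlgebraicClosure ℚ) (modularFunctionFieldBar N)) P =
          P.ord (elL Y1 h1 / elL Y2 h2)) ∧
      z = Pic0.mk D' := by
  obtain ⟨D0, rfl⟩ := Pic0.mk_surjective z
  rw [reductionModL, reductionAlong_eq h] at hz
  obtain ⟨D', Y1, Y2, h1, h2, hred, hne, hdeg, hD, -, hprin⟩ :=
    exists_core_rep h.choose_spec.1 h.choose_spec.2 Ideal.Quotient.mk_surjective hPD hconstk m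
      D0 hmz hz
  refine ⟨⟨D', Divisor.mem_degZero.2 hdeg⟩, Y1, Y2, h1, h2, hred, hne, fun P => ?_, ?_⟩
  · rw [← hD P, Finsupp.smul_apply, nsmul_eq_mul]
  · rw [← sub_eq_zero]
    show Pic0.mk (D0 - ⟨D', Divisor.mem_degZero.2 hdeg⟩) = 0
    exact (QuotientAddGroup.eq_zero_iff _).mpr (AddSubgroup.mem_addSubgroupOf.mpr hprin)

end Frozen

end Fermat.Agent.GE8.RaiseP.Deligne.KerFront
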