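/-
GATE-E (S59 pre-work) / node E8.5 DELIGNE-MODP, leaf **(K) KerUp** (helper65; claims row
GE8-5-DELIGNE-K; route of helper25, board 6853 step (2)).

**The kernel of reduction of `J₀(N)[m]` at `A ∣ p ∤ N` goes into `M⁰_m` at level `N·p`.**

`K := {x ∈ Kum_m(F_N) : red_A (kumJ x) = 0}`.  By the front half of S18 (`KerFront`), `x ∈ K` is the
Kummer class of `u' = Y1 / Y2`, `Y1 Y2 ∈ A((q)) ∩ F_N` with EQUAL NONZERO coefficientwise
reductions.  Push up by `α^* = aUp N p m` (`F_N ⊆ F_{Np}`, same `q`-expansions):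

* `w₁` (Gauss valuation of level `Np`): `α u' = Y1 / Y2` has constant reduction `1`;
* `w₂ = w₁ ∘ W_p`: `W_p ∘ α = β` (`GK/AL/WRealize.wAut_alphaB`), `β u' = Y1(q^p) / Y2(q^p)`, same
  coefficients, so again constant reduction `1`.

Hence `α^* x ∈ M0Kum (N·p) A h m` (`GF/Shape/Plug`), for EVERY modulus `m ≠ 0` (in particular
`m = p`, the residue characteristic).

* `val_int_div_sub_one_lt` : the Gauss-norm computation (`v(Y1/Y2 − 1) < 1`);
* `isCstUnit₁_alpha`, `isCstUnit₂_alpha` : the two `IsCstUnit` facts;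
* `aUp_mem_M0Kum_of_inputs` : the statement from `ReductionInputsModL A N`;
* `aUp_mem_M0Kum` : **(K)** with arithmetic binders (`p ∤ N`, `p = 2 → 3 ∣ N`, `p = 3 → 2 ∣ N`,
  `A ∣ p`), through `GJ.S37LSpaceGate.levelPackage`;
* `kerUp` : the same at `m = p`, `[Fact p.Prime]`, in the spelling of `Stmt.KerUpStmt` (board 6948).
-/
import Fermat.Agent.GE8.RaiseP.Deligne.KerFront
import Fermat.Agent.GF.Shape.Plug
import Fermat.Agent.GK.UTr.KumAlpha
import Fermat.Agent.GK.AL.WRealize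
import Fermat.Agent.GJ.J1.FibreFinal
import Fermat.Agent.GJ.J1.ResidueAlgClosed
import Fermat.Agent.GJ.S37.LSpaceGateProof

set_option autoImplicit false
set_option linter.unusedSectionVars false

noncomputable section

namespace Fermat.Agent.GE8.RaiseP.Deligne.KerUp

open HahnSeries AlgebraicCurve ModularCurve IsLocalRing
open Fermat.Agent.GJ.S18.Front Fermat.Agent.GE8.RaiseP.Deligne.KerFront
open Fermat.Agent.GJ.KumGroup Fermat.Agent.GJ.Kum Fermat.Agent.GJ.Kum.KumType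
open Fermat.Agent.GJ.J1 Fermat.Agent.GJ.J1.Val Fermat.Agent.GJ.HN
open Fermat.Agent.GK.SS Fermat.Agent.GK.AL Fermat.Agent.GK.UTr
open Fermat.Agent.GS.F Fermat.Agent.GF.Shape.Plug Fermat.Agent.GH.KummerPic
open Fermat.Agent.GH.TorsionCount Fermat.Agent.GH.S32.KumEquivariant Fermat.Agent.S24

set_option synthInstance.maxHeartbeats 400000

local notation "Qb" => AlgebraicClosure ℚ

/-! ### valuation subrings: two generic facts -/

section VS

variable {E E' : Type*} [Field E] [Field E']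

/-- `v(a / b − 1) < 1` as soon as `v(b) = 1` and `v(a − b) < 1`. -/
theorem val_div_sub_one_lt (B : ValuationSubring E) {a b : E} (hb : B.valuation b = 1)
    (hab : B.valuation (a - b) < 1) : B.valuation (a / b - 1) < 1 := by
  have hb0 : b ≠ 0 := fun h0 => by rw [h0, map_zero] at hb; exact zero_ne_one hb
  have e : a / b - 1 = (a - b) / b := by field_simp
  rw [e, map_div₀, hb, div_one]
  exact hab

/-- the valuation of a `comap` along a field isomorphism. -/
theorem val_comap_lt_one_iff (B : ValuationSubring E) (w : E' ≃+* E) (z : E') :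
    (B.comap (w : E' →+* E)).valuation z < 1 ↔ B.valuation (w z) < 1 := by
  rw [vs_val_lt_one_iff, vs_val_lt_one_iff, ValuationSubring.mem_comap,
    ValuationSubring.mem_comap]
  show (w z ∈ B ∧ (z = 0 ∨ w z⁻¹ ∉ B)) ↔ _
  rw [map_inv₀, map_eq_zero_iff w w.injective]

end VS

/-! ### the Gauss-norm computation -/

section Gauss

variable (M : ℕ) [NeZero M] (A : ValuationSubring Qb)

/-- **`v(Z1 / Z2 − 1) < 1`** for `Z1 Z2 ∈ A((q)) ∩ F_M` with equal nonzero reductions. -/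
theorem val_int_div_sub_one_lt {Z1 Z2 : LaurentSeries A}
    (h1 : emb A Z1 ∈ modularFunctionFieldBar M) (h2 : emb A Z2 ∈ modularFunctionFieldBar M)
    (hred : rd A Z1 = rd A Z2) (hne : rd A Z1 ≠ 0) :
    (RwBar M A).valuation
      ((⟨emb A Z1, h1⟩ : FN M) / (⟨emb A Z2, h2⟩ : FN M) - 1) < 1 := by
  have hy1 : (⟨emb A Z1, h1⟩ : FN M) ∈ RwBar M A :=
    int_mem_Rw (hGF := hasGaussFrac_bar M A) h1
  have hy2 : (⟨emb A Z2, h2⟩ : FN M) ∈ RwBar M A :=
    int_mem_Rw (hGF := hasGaussFrac_bar M A) h2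
  have hr1 : redL A (modularFunctionFieldBar M) (hasGaussFrac_bar M A) ⟨_, hy1⟩ = rd A Z1 :=
    redL_int (hGF := hasGaussFrac_bar M A) h1
  have hr2 : redL A (modularFunctionFieldBar M) (hasGaussFrac_bar M A) ⟨_, hy2⟩ = rd A Z2 :=
    redL_int (hGF := hasGaussFrac_bar M A) h2
  have hne2 : redL A (modularFunctionFieldBar M) (hasGaussFrac_bar M A) ⟨_, hy2⟩ ≠ 0 := by
    rw [hr2, ← hred]; exact hne
  have hinv0 := inv_mem_of_redL_ne_zero hne2
  have hinv : (⟨emb A Z2, h2⟩ : FN M)⁻¹ ∈ RwBar M A := hinv0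
  have hy20 : (⟨emb A Z2, h2⟩ : FN M) ≠ 0 := by
    intro h0
    apply hne2
    have h3 : redL A (modularFunctionFieldBar M) (hasGaussFrac_bar M A) ⟨_, hy2⟩ =
        redL A (modularFunctionFieldBar M) (hasGaussFrac_bar M A) 0 :=
      congrArg _ (Subtype.ext h0)
    rw [h3, map_zero]
  have hv2 : (RwBar M A).valuation (⟨emb A Z2, h2⟩ : FN M) = 1 :=
    (vs_val_eq_one_iff (RwBar M A)).2 ⟨hy20, hy2, hinv⟩
  refine val_div_sub_one_lt (RwBar M A) hv2 ?_
  have hsub : redL A (modularFunctionFieldBar M) (hasGaussFrac_bar M A)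
      (⟨_, hy1⟩ - ⟨_, hy2⟩) = 0 := by
    rw [map_sub, hr1, hr2, hred, sub_self]
  have hmem := (redL_eq_zero_iff _).1 hsub
  exact ((RwBar M A).valuation_lt_one_iff _).1 hmem

end Gauss

/-! ### the two `IsCstUnit` facts at level `N · p` -/

section Cst

variable (N : ℕ) [NeZero N] {p : ℕ} [NeZero p] (A : ValuationSubring Qb)

/-- integral elements of level `N` are integral elements of level `N · p`. -/
theorem emb_mem_mul {Y : LaurentSeries A} (hY : Y ∈ IntRing A (residue A) N) :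
    emb A Y ∈ modularFunctionFieldBar (N * p) :=
  (heckeAlphaBar Qb N p (elL Y hY)).2

/-- `Y(q^p)` of an integral element of level `N` is an integral element of level `N · p`. -/
theorem emb_qExpand_mem_mul {Y : LaurentSeries A} (hY : Y ∈ IntRing A (residue A) N) :
    emb A (qExpand A p Y) ∈ modularFunctionFieldBar (N * p) := by
  rw [emb, coeffMap_qExpand]
  exact (heckeBetaBar Qb N p (elL Y hY)).2

theorem alphaB_elL {Y : LaurentSeries A} (hY : Y ∈ IntRing A (residue A) N) :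
    alphaB N p (elL Y hY) = ⟨emb A Y, emb_mem_mul N A hY⟩ :=
  Subtype.ext rfl

theorem betaB_elL {Y : LaurentSeries A} (hY : Y ∈ IntRing A (residue A) N) :
    betaB N p (elL Y hY) = ⟨emb A (qExpand A p Y), emb_qExpand_mem_mul N A hY⟩ := by
  apply Subtype.ext
  show qExpand Qb p (coeffMap A.subtype Y) = emb A (qExpand A p Y)
  rw [emb, coeffMap_qExpand]

variable {N A}

/-- **`w₁`**: `α (Y1 / Y2)` has constant reduction `1` for the Gauss valuation of level `N · p`. -/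
theorem isCstUnit₁_alpha {Y1 Y2 : LaurentSeries A} (h1 : Y1 ∈ IntRing A (residue A) N)
    (h2 : Y2 ∈ IntRing A (residue A) N)
    (hred : coeffMap (residue A) Y1 = coeffMap (residue A) Y2)
    (hne : coeffMap (residue A) Y1 ≠ 0) :
    (galVal1 (N * p) A).IsCstUnit (alphaB N p (elL Y1 h1 / elL Y2 h2)) := by
  refine ⟨1, map_one _, ?_⟩
  rw [map_one, map_div₀, alphaB_elL, alphaB_elL]
  exact val_int_div_sub_one_lt (N * p) A (emb_mem_mul N A h1) (emb_mem_mul N A h2) hred hne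

/-- **`w₂ = w₁ ∘ W_p`**: `α (Y1 / Y2)` has constant reduction `1` for the second Gauss valuation of
level `N · p` (`W_p ∘ α = β`, `β u = u(q^p)`). -/
theorem isCstUnit₂_alpha (h : ExactDvd p (N * p)) {Y1 Y2 : LaurentSeries A}
    (h1 : Y1 ∈ IntRing A (residue A) N) (h2 : Y2 ∈ IntRing A (residue A) N)
    (hred : coeffMap (residue A) Y1 = coeffMap (residue A) Y2)
    (hne : coeffMap (residue A) Y1 ≠ 0) :
    (galVal2 (N * p) A h).IsCstUnit (alphaB N p (elL Y1 h1 / elL Y2 h2)) := by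
  refine ⟨1, map_one _, ?_⟩
  rw [map_one]
  show ((galVal1 (N * p) A).W.comap
    (((wAut h : FN (N * p) ≃ₐ[Kbar] FN (N * p)) : FN (N * p) ≃+* FN (N * p)) :
      FN (N * p) →+* FN (N * p))).valuation _ < 1
  rw [val_comap_lt_one_iff]
  show (RwBar (N * p) A).valuation (wAut h (alphaB N p (elL Y1 h1 / elL Y2 h2) - 1)) < 1
  rw [map_sub, map_one, wAut_alphaB, map_div₀, betaB_elL, betaB_elL]
  refine val_int_div_sub_one_lt (N * p) A (emb_qExpand_mem_mul N A h1)
    (emb_qExpand_mem_mul N A h2) ?_ ?_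
  · rw [rd, coeffMap_qExpand, coeffMap_qExpand, hred]
  · rw [rd, coeffMap_qExpand]
    intro h0
    apply hne
    apply qExpand_injective (R := ResidueField A) p
    rw [h0, map_zero]

end Cst

/-! ### (K) -/

section Main

variable (N : ℕ) [NeZero N] {p : ℕ} [NeZero p] (A : ValuationSubring Qb)
  (h : ExactDvd p (N * p))

/-- **(K), from the reduction inputs**: the kernel of `red_A` on `Kum_m(F_N) = J₀(N)[m]` is mapped by
`α^*` into `M⁰_m` at level `N · p`. -/
theorem aUp_mem_M0Kum_of_inputs [IsAlgClosed (ResidueField A)]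
    (hRI : ReductionInputsModL A N) (m : ℕ) [NeZero m]
    (x : Additive (Kum Qb (FK N) m)) (hx : reductionModL A N (kumJ N m x) = 0) :
    aUp N p m x ∈ M0Kum (N * p) A h m := by
  have hPD := hasPrincipalDivisors_FK N
  have hmz : m • kumJ N m x = 0 := by
    have := smul_kumJ_eq_zero N m x
    rwa [natCast_zsmul] at this
  obtain ⟨D', Y1, Y2, h1, h2, hred, hne, hD, hzD⟩ :=
    exists_core_rep_modL N A hRI Fermat.Agent.GJ.FibreCurve.instHasPrincipalDivisorsBar
      (fun _ hg hQ => Fermat.Agent.GJ.FibreCurve.exists_const_fibre hRI hg hQ) m (kumJ N m x)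
      hmz hx
  have hne2 : coeffMap (residue A) Y2 ≠ 0 := hred ▸ hne
  have hu0 : elL Y1 h1 / elL Y2 h2 ≠ 0 :=
    div_ne_zero (elL_ne_zero h1 hne) (elL_ne_zero h2 hne2)
  -- the Kummer generator `u' = Y1 / Y2`
  set u' : (FK N)ˣ := Units.mk0 (elL Y1 h1 / elL Y2 h2) hu0 with hu'
  have hu'm : u' ∈ pDivUnits Qb (FK N) m := fun P => ⟨_, (hD P).symm⟩
  have hx' : x = Additive.ofMul (Kum.mk ⟨u', hu'm⟩) := by
    apply kumJ_injective N m
    rw [hzD]
    exact (kum0_eq_mk ⟨u', hu'm⟩ D' hD).symm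
  rw [hx', aUp_mk, mem_M0Kum]
  refine mem_M0.2 ⟨⟨alphaUnits N p u', alphaUnits_mem N p m u' hu'm⟩, ⟨?_, ?_, ?_⟩, rfl⟩
  · exact alphaUnits_mem N p m u' hu'm
  · exact isCstUnit₁_alpha h1 h2 hred hne
  · exact isCstUnit₂_alpha h h1 h2 hred hne

end Main

/-- **(K) KerUp** (step (2) of DELIGNE-MODP): `A ∣ p ∤ N` (`3 ∣ N` if `p = 2`, `2 ∣ N` if `p = 3`),
`x ∈ Kum_m(F_N)` with `red_A (kumJ x) = 0` ⟹ `α^* x ∈ M0Kum (N·p) A h m`; every `m ≠ 0`. -/
theorem aUp_mem_M0Kum (N : ℕ) [NeZero N] {p : ℕ} [NeZero p] (hp : p.Prime) (hpN : ¬ p ∣ N)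
    (h2 : p = 2 → 3 ∣ N) (h3 : p = 3 → 2 ∣ N) (A : ValuationSubring Qb)
    (hA : A.LiesOverPrime p) (h : ExactDvd p (N * p)) (m : ℕ) [NeZero m]
    (x : Additive (Kum Qb (FK N) m)) (hx : reductionModL A N (kumJ N m x) = 0) :
    aUp N p m x ∈ M0Kum (N * p) A h m := by
  have : IsAlgClosed (ResidueField A) :=
    Fermat.Agent.GJ.ResidueAlgClosed.instIsAlgClosedResidueField A
  obtain ⟨hRI, -⟩ := Fermat.Agent.GJ.S37LSpaceGate.levelPackage N hp hpN h2 h3 A hA
  exact aUp_mem_M0Kum_of_inputs N A h hRI m x hx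

/-- the same for a class given in `J₀(N)[m]`-form: `z ∈ J₀(N)(ℚ̄)`, `m • z = 0`, `red_A z = 0` ⟹
`α^* (kumJ⁻¹ z) ∈ M0Kum`. -/
theorem aUp_symm_mem_M0Kum (N : ℕ) [NeZero N] {p : ℕ} [NeZero p] (hp : p.Prime) (hpN : ¬ p ∣ N)
    (h2 : p = 2 → 3 ∣ N) (h3 : p = 3 → 2 ∣ N) (A : ValuationSubring Qb)
    (hA : A.LiesOverPrime p) (h : ExactDvd p (N * p)) (m : ℕ) [NeZero m]
    (z : ↥(Submodule.torsionBy ℤ (JZero N) (m : ℤ)))
    (hz : reductionModL A N (z : JZero N) = 0) :
    aUp N p m ((kumTorsionBy N m).symm z) ∈ M0Kum (N * p) A h m := by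
  refine aUp_mem_M0Kum N hp hpN h2 h3 A hA h m _ ?_
  rw [kumJ_apply, AddEquiv.apply_symm_apply]
  exact hz

/-- **(K) in the spelling of `Stmt.KerUpStmt`** (helper25, board 6948): this term has type
`KerUpStmt` verbatim. -/
theorem kerUp : ∀ (N : ℕ) [NeZero N] (p : ℕ) [Fact p.Prime] (_ : ¬ p ∣ N) (_ : p = 2 → 3 ∣ N)
    (_ : p = 3 → 2 ∣ N) (A : ValuationSubring Qb) (_ : A.LiesOverPrime p)
    (h : ExactDvd p (N * p)) (x : Additive (Kum Qb (FK N) p)),
    reductionModL A N (kumJ N p x) = 0 → aUp N p p x ∈ M0Kum (N * p) A h p :=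
  fun N _ p _ hpN h2 h3 A hA h x hx =>
    aUp_mem_M0Kum N (Fact.out : p.Prime) hpN h2 h3 A hA h p x hx

/-- `p ∥ N · p` for `p ∤ N`. -/
theorem exactDvd_mul_self {N p : ℕ} (hp : p.Prime) (hpN : ¬ p ∣ N) : ExactDvd p (N * p) where
  prime := hp
  dvd := dvd_mul_left p N
  not_sq := by
    intro hd
    rw [pow_two] at hd
    exact hpN ((Nat.mul_dvd_mul_iff_right hp.pos).1 hd)

end Fermat.Agent.GE8.RaiseP.Deligne.KerUp
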