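/-
GATE-E / E8.5 (i) DELIGNE-MODP, the TATE LINE (helper25; design: board 6853, step (4)).

`W/ℤ` with multiplicative reduction at `p` (`p ∣ Δ`, `p ∤ c₄`), `A ∣ p` a place of `ℚ̄`.  From
`GE7/OrdMult.ordAtMult` at `n = 1`: a line `L ⊂ W[p]` (in the vocabulary `Tp W p`, `rho W p` of
`GB/A/A6/ECDet`) and a sign `δ σ = ± 1` for `σ ∈ D_A` with

* `L ≠ W[p]`;
* `L` is `D_A`-stable;
* `(σ - 1) W[p] ⊆ L` for `σ ∈ I_A`;
* `(σ - δ σ) W[p] ⊆ L` for `σ ∈ D_A`.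
-/
import Mathlib
import Fermat.Agent.GE7.OrdMult.Plug
import Fermat.Agent.GB.A.A6.ECDet

set_option autoImplicit false

namespace Fermat.Agent.GE8.RaiseP.Deligne.Line

open WeierstrassCurve WeierstrassCurve.Affine WeierstrassCurve.Affine.Point
open scoped WeierstrassCurve.Affine
open Fermat.Agent.GB.A.A6.ECDet Fermat.Agent.GE7.OrdMult

local notation "Qb" => AlgebraicClosure ℚ
local notation "GQ" => (AlgebraicClosure ℚ ≃ₐ[ℚ] AlgebraicClosure ℚ)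

variable {W : WeierstrassCurve ℤ} {p : ℕ} [hp : Fact p.Prime]

/-- **the Tate line of `W[p]` at a place `A ∣ p` of multiplicative reduction.** -/
theorem exists_line (hΔ : W.Δ ≠ 0) (hpΔ : (p : ℤ) ∣ W.Δ) (hc₄ : ¬ (p : ℤ) ∣ W.c₄)
    (A : ValuationSubring Qb) (hA : A.LiesOverPrime p) :
    ∃ (L : Submodule (ZMod p) (Tp W p)) (δ : GQ → ZMod p),
      (∃ v : Tp W p, v ∉ L) ∧
      (∀ σ ∈ A.decompositionSubgroup ℚ, δ σ = 1 ∨ δ σ = -1) ∧
      (∀ σ ∈ A.decompositionSubgroup ℚ, ∀ v ∈ L, rho W p σ v ∈ L) ∧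
      (∀ σ ∈ A.inertiaSubgroupIn ℚ, ∀ v : Tp W p, rho W p σ v - v ∈ L) ∧
      (∀ σ ∈ A.decompositionSubgroup ℚ, ∀ v : Tp W p, rho W p σ v - δ σ • v ∈ L) := by
  obtain ⟨C, δ, hδ, hCst, -, hquot, hI, hD⟩ := ordAtMult W hΔ hpΔ hc₄ A hA
  -- the line
  let L : Submodule (ZMod p) (Tp W p) :=
    { carrier := {x | ((x : Tp W p) : ((W.map (Int.castRingHom ℚ))⁄Qb).Point) ∈ C}
      zero_mem' := C.zero_mem
      add_mem' := fun {x y} hx hy => by
        show ((x + y : Tp W p) : ((W.map (Int.castRingHom ℚ))⁄Qb).Point) ∈ C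
        rw [Submodule.coe_add]
        exact C.add_mem hx hy
      smul_mem' := fun c x hx => by
        show ((c • x : Tp W p) : ((W.map (Int.castRingHom ℚ))⁄Qb).Point) ∈ C
        obtain ⟨k, rfl⟩ := ZMod.intCast_surjective c
        rw [Int.cast_smul_eq_zsmul, Submodule.coe_smul]
        exact C.zsmul_mem hx k }
  have hmemL : ∀ x : Tp W p, x ∈ L ↔
      ((x : Tp W p) : ((W.map (Int.castRingHom ℚ))⁄Qb).Point) ∈ C := fun _ => Iff.rfl
  have hcoe_rho : ∀ (σ : GQ) (x : Tp W p),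
      ((rho W p σ x : Tp W p) : ((W.map (Int.castRingHom ℚ))⁄Qb).Point) =
        σ • ((x : Tp W p) : ((W.map (Int.castRingHom ℚ))⁄Qb).Point) := fun _ _ => rfl
  refine ⟨L, fun σ => ((δ σ : ℤ) : ZMod p), ?_, ?_, ?_, ?_, ?_⟩
  · -- `L ≠ W[p]`
    obtain ⟨y, hy, -, hym⟩ := hquot 1
    rw [pow_one] at hy
    have hy' : y ∈ Submodule.torsionBy ℤ ((W.map (Int.castRingHom ℚ))⁄Qb).Point p := by
      rw [Submodule.mem_torsionBy_iff, Nat.cast_smul_eq_nsmul]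
      exact hy
    refine ⟨⟨y, hy'⟩, fun hmem => ?_⟩
    have h1 : (1 : ℕ) • y ∈ C := by rw [one_smul]; exact hmem
    have h2 := hym 1 h1
    rw [pow_one] at h2
    exact hp.out.one_lt.ne' (Nat.dvd_one.1 h2)
  · intro σ hσ
    show ((δ σ : ℤ) : ZMod p) = 1 ∨ ((δ σ : ℤ) : ZMod p) = -1
    rcases hδ σ hσ with h | h
    · left; rw [h]; norm_num
    · right; rw [h]; norm_num
  · intro σ hσ v hv
    rw [hmemL, hcoe_rho]
    exact (hCst σ hσ _).2 hv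
  · intro σ hσ v
    rw [hmemL, Submodule.coe_sub, hcoe_rho]
    exact hI σ hσ _
  · intro σ hσ v
    obtain ⟨a, ha⟩ := Fermat.Agent.GE7.OrdMult.exists_cyc_exponent σ (N := p ^ 1)
      (pow_ne_zero 1 hp.out.ne_zero)
    have hv : p ^ 1 • ((v : Tp W p) : ((W.map (Int.castRingHom ℚ))⁄Qb).Point) = 0 := by
      have := v.2
      rw [Submodule.mem_torsionBy_iff, Nat.cast_smul_eq_nsmul] at this
      rw [pow_one]; exact this
    have h1 := (hD σ hσ 1 a ha).2 _ hv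
    show rho W p σ v - ((δ σ : ℤ) : ZMod p) • v ∈ L
    rw [hmemL, Submodule.coe_sub, hcoe_rho, Int.cast_smul_eq_zsmul, Submodule.coe_smul]
    exact h1

end Fermat.Agent.GE8.RaiseP.Deligne.Line
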