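/-
GATE-E / E8.5 (i) DELIGNE-MODP, THE STATEMENTS (helper25; design: board 6853).

* `ESpStmt`   : (E) Eichler–Shimura at `ℓ = p` in the `Kum` vocabulary (helper80, `ESp.lean`):
  `red_A (kumJ (φ z − T_p z)) = 0` for every `z ∈ Kum_p(F_N)`, `φ` a Frobenius at `A ∣ p`, `p ∤ N`;
* `KerUpStmt` : (K) the kernel of reduction goes up into `M⁰_p` of level `N p` (helper65,
  `KerUp.lean`): `red_A (kumJ x) = 0 ⟹ α^* x ∈ M0Kum (N p) A h p`;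
* `ClaimStmt` : THE CLAIM (`Main.lean`): for `W/ℤ` multiplicative at `p`, `ρ̄_{W,p}` irreducible, `p ∤ N`
  (`2 ∣ N` if `p = 3`), `T_p = kumTl N p` acts on the `ρ̄_W`-eigenspace `eigQ N p S a ⊆ Kum_p(F_N)`
  (`p ∈ S`) as a scalar `ε = ± 1`.
-/
import Mathlib
import Fermat.Agent.GB.A.A6.EigQ
import Fermat.Agent.GK.UTr.KumAlpha
import Fermat.Agent.GF.Shape.Plug

set_option autoImplicit false

noncomputable section

namespace Fermat.Agent.GE8.RaiseP.Deligne.Stmt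

open AlgebraicCurve ModularCurve
open Fermat.Agent.GJ Fermat.Agent.GJ.KumGroup Fermat.Agent.GJ.Kum.KumType
open Fermat.Agent.GK.UQ Fermat.Agent.GK.UTr Fermat.Agent.GK.AL
open Fermat.Agent.GB.A.A6.EigQ Fermat.Agent.GF.Shape.Plug

local notation "Qb" => AlgebraicClosure ℚ
local notation "GQ" => (AlgebraicClosure ℚ ≃ₐ[ℚ] AlgebraicClosure ℚ)

/-- **(E)** Eichler–Shimura at `ℓ = p` on the reduction, `Kum` vocabulary. -/
def ESpStmt : Prop :=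
  ∀ (N : ℕ) [NeZero N] (p : ℕ) [Fact p.Prime] (hpN : ¬ p ∣ N) (_ : p = 2 → 3 ∣ N)
    (_ : p = 3 → 2 ∣ N) (A : ValuationSubring Qb) (_ : A.LiesOverPrime p) (φ : GQ)
    (_ : A.IsFrobeniusAt φ p) (z : Additive (Kum Qb (FK N) p)),
    reductionModL A N
      (kumJ N p (gal N p φ z - kumTl N p (Fact.out : p.Prime) hpN z)) = 0

/-- **(K)** the kernel of reduction at level `N` goes up into `M⁰_p` at level `N p`. -/
def KerUpStmt : Prop :=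
  ∀ (N : ℕ) [NeZero N] (p : ℕ) [Fact p.Prime] (_ : ¬ p ∣ N) (_ : p = 2 → 3 ∣ N)
    (_ : p = 3 → 2 ∣ N) (A : ValuationSubring Qb) (_ : A.LiesOverPrime p)
    (h : ExactDvd p (N * p)) (x : Additive (Kum Qb (FK N) p)),
    reductionModL A N (kumJ N p x) = 0 → aUp N p p x ∈ M0Kum (N * p) A h p

/-- **THE CLAIM**: `T_p = ε = ± 1` on the `ρ̄_W`-eigenspace of `Kum_p(F_N)`, `p ∤ N`, `W`
multiplicative at `p`. -/
def ClaimStmt : Prop :=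
  ∀ (W : WeierstrassCurve ℤ) (_ : W.Δ ≠ 0) (p : ℕ) [Fact p.Prime] (_ : p ≠ 2)
    (_ : (p : ℤ) ∣ W.Δ) (_ : ¬ (p : ℤ) ∣ W.c₄) (_ : W.ModRepIsIrreducible p)
    (N : ℕ) [NeZero N] (hpN : ¬ p ∣ N) (_ : p = 3 → 2 ∣ N)
    (S : Finset ℕ) (hNS : ∀ q : ℕ, q.Prime → q ∣ N → q ∈ S) (_ : p ∈ S)
    (a : ℕ → ℤ) (_ : ∀ ℓ : ℕ, ℓ.Prime → ℓ ∉ S → W.IsGoodPrimeFor ℓ → a ℓ = W.apOfModel ℓ),
    ∃ ε : ZMod p, (ε = 1 ∨ ε = -1) ∧
      ∀ x ∈ eigQ N p S hNS a, kumTl N p (Fact.out : p.Prime) hpN x = ε • x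

end Fermat.Agent.GE8.RaiseP.Deligne.Stmt
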