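/-
GATE-E / E8.5 (i) DELIGNE-MODP (helper25; design: board 6853, step (2), last line): the pull-back
`α^* = aUp N q m : Kum_m(F_N) → Kum_m(F_{N q})` (`q ∤ N` prime) satisfies `α_* α^* = q + 1`, hence is
INJECTIVE as soon as `q + 1` is invertible modulo `m` — in particular for `m = q = p`.

* `normAlong_alphaB_alphaB` : `Norm_{F_{Nq}/F_N} (α u) = u ^ (q + 1)`;
* `aLow_aUp`                : `α_* (α^* x) = (q + 1) • x`;
* `aUp_injective_self`      : `α^*` is injective on `Kum_p(F_N)` for `q = p`.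
-/
import Mathlib
import Fermat.Agent.GK.UTr.KumAlpha
import Fermat.Agent.GJ.HN.Degree

set_option autoImplicit false
set_option linter.style.haveILetI false

noncomputable section

namespace Fermat.Agent.GE8.RaiseP.Deligne.UpInj

open AlgebraicCurve ModularCurve Fermat.Agent.S24
open Fermat.Agent.GJ Fermat.Agent.GJ.HN Fermat.Agent.GJ.HInputs
open Fermat.Agent.GJ.KumGroup Fermat.Agent.GJ.Kum.KumType
open Fermat.Agent.GK.UTr

variable {N q : ℕ} [NeZero N] [NeZero q]

/-- `Norm_{F_{Nq}/F_N} (α u) = u ^ (q + 1)` for a prime `q ∤ N`. -/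
theorem normAlong_alphaB_alphaB (hq : q.Prime) (hqN : ¬ q ∣ N) (u : FK N) :
    normAlong (alphaB N q) (alphaB N q u) = u ^ (q + 1) := by
  letI := algebraAlong (alphaB N q)
  have h1 : alphaB N q u = algebraMap (FK N) (FK (N * q)) u := rfl
  show Algebra.norm (FK N) (alphaB N q u) = u ^ (q + 1)
  rw [h1, Algebra.norm_algebraMap, finrank_alphaB hq hqN]

/-- `α_* α^* = q + 1` on `Kum_m(F_N)`. -/
theorem aLow_aUp (hq : q.Prime) (hqN : ¬ q ∣ N) (m : ℕ) (x : Additive (Kum Kb (FK N) m)) :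
    aLow N q m (aUp N q m x) = (q + 1) • x := by
  obtain ⟨u, rfl⟩ := exists_rep x
  rw [aUp_mk, aLow_mk, ← ofMul_pow, ← map_pow]
  refine congrArg (fun w => Additive.ofMul (Kum.mk w)) (Subtype.ext (Units.ext ?_))
  show normAlong (alphaB N q) (alphaB N q ((u : (FK N)ˣ) : FK N)) = _
  rw [normAlong_alphaB_alphaB hq hqN]
  rfl

/-- **`α^*` is injective on `Kum_p(F_N)`** (`p ∤ N`). -/
theorem aUp_injective_self {p : ℕ} [NeZero p] (hp : p.Prime) (hpN : ¬ p ∣ N) :
    Function.Injective (aUp N p p) := by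
  rw [injective_iff_map_eq_zero]
  intro x hx
  have h1 := aLow_aUp hp hpN p x
  rw [hx, map_zero] at h1
  have h2 : (p + 1) • x = x := by
    rw [add_smul, one_smul, nsmul_eq_zero, zero_add]
  rw [← h2]
  exact h1.symm

end Fermat.Agent.GE8.RaiseP.Deligne.UpInj
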