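/-
GATE-E / E8.5 (i) DELIGNE-MODP, THE CLAIM (helper25; design: board 6853).

`W/ℤ` with multiplicative reduction at the odd prime `p`, `ρ̄_{W,p}` irreducible, `p ∤ N` (`2 ∣ N` if
`p = 3`).  On the `ρ̄_W`-eigenspace `Q = eigQ N p S a ⊆ Kum_p(F_N) = J₀(N)[p]` the Hecke operator
`T_p = kumTl N p` acts as a SCALAR `ε = ± 1`.

`claim_of : ESpStmt → KerUpStmt → ClaimStmt`:
* `Φ : M₂(𝔽_p) → End(Q)` (BLR, `GB/A/A6/Inertia.exists_algHom_eigQ`), `T_p` commutes with Galois hence
  with `Φ`;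
* the Tate line `L ⊂ W[p]` (`Line.exists_line`, from `GE7/OrdMult`);
* `K := ker (red_A ∘ kumJ) ∩ Q` has no `I_A`-trivial subquotient: (K) sends it into `M⁰_p` of level
  `N p`, where (NU) is GATE-S's theorem (`GS/Top/FramePlug.hasCE_of_frameNode` +
  `GS/Top/FrameNodeAll.frameNode_all`), and `α^*` is injective and Galois-equivariant;
* (E): `φ z − T_p z ∈ K`;
* the abstract core `Abs.eq_smul_one_of_line`.
-/
import Mathlib
import Fermat.Agent.GE8.RaiseP.Deligne.Stmt
import Fermat.Agent.GE8.RaiseP.Deligne.Abs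
import Fermat.Agent.GE8.RaiseP.Deligne.Line
import Fermat.Agent.GE8.RaiseP.Deligne.UpInj
import Fermat.Agent.GB.A.A6.Inertia
import Fermat.Agent.GK.UTr.KumAlphaGal
import Fermat.Agent.GS.Top.FramePlug
import Fermat.Agent.GS.Top.FrameNodeAll
import Fermat.Agent.Common_helper32.FrobeniusExists

set_option autoImplicit false
set_option linter.unusedSectionVars false

noncomputable section

namespace Fermat.Agent.GE8.RaiseP.Deligne.Main

open AlgebraicCurve ModularCurve
open Fermat.Agent.GJ Fermat.Agent.GJ.KumGroup Fermat.Agent.GJ.Kum.KumType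
open Fermat.Agent.GK.UQ Fermat.Agent.GK.UTr Fermat.Agent.GK.AL
open Fermat.Agent.GB.A.A6.ECDet Fermat.Agent.GB.A.A6.EigQ Fermat.Agent.GB.A.A6.Abs
open Fermat.Agent.GB.A.A6.Inertia
open Fermat.Agent.GF.Shape.Plug Fermat.Agent.GS.F Fermat.Agent.GS.Old
open Fermat.Agent.GE8.RaiseP.Deligne.Stmt

local notation "Qb" => AlgebraicClosure ℚ
local notation "GQ" => (AlgebraicClosure ℚ ≃ₐ[ℚ] AlgebraicClosure ℚ)

/-- `p ∥ N p` for `p ∤ N`. -/
theorem exactDvd_mul_self {N p : ℕ} (hp : p.Prime) (hpN : ¬ p ∣ N) : ExactDvd p (N * p) where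
  prime := hp
  dvd := Dvd.intro_left N rfl
  not_sq := fun h => hpN (by
    rw [pow_two] at h
    exact Nat.dvd_of_mul_dvd_mul_right hp.pos h)

/-- `#W[p] = p²`. -/
theorem card_Tp (W : WeierstrassCurve ℤ) (hΔ : W.Δ ≠ 0) (p : ℕ) [Fact p.Prime] :
    Nat.card (Tp W p) = p ^ 2 := by
  have h : ((W.map (Int.castRingHom ℚ)).map (algebraMap ℚ (AlgebraicClosure ℚ))).Δ ≠ 0 := by
    rw [WeierstrassCurve.map_Δ, WeierstrassCurve.map_Δ]
    simpa using hΔ
  exact Fermat.Agent.GE.Tors.card_torsionBy h p (Fact.out : p.Prime).one_le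

/-- **THE CLAIM from (E) and (K).** -/
theorem claim_of (hE : ESpStmt) (hK : KerUpStmt) : ClaimStmt := by
  intro W hΔ p _ hp2 hpΔ hc₄ hirr N _ hpN h3 S hNS hpS a ha
  have hp : p.Prime := Fact.out
  have hcard : Nat.card (Tp W p) = p ^ 2 := card_Tp W hΔ p
  obtain ⟨b, h0, h1⟩ := exists_basis_conj hΔ hcard hirr hp2
  obtain ⟨Φ, hΦ⟩ := exists_algHom_eigQ (M := N) hΔ hcard hirr hp2 S hNS hpS a ha b h0 h1
  obtain ⟨A, φ, hA, hφ⟩ := Fermat.Agent.Common_helper32.exists_isFrobeniusAt p hp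
  obtain ⟨L, δ, hLne, hδ, hLst, hLI, hLD⟩ := Line.exists_line hΔ hpΔ hc₄ A hA
  have hφD : φ ∈ A.decompositionSubgroup ℚ := hφ.mem_decompositionSubgroup
  refine ⟨δ φ, hδ φ hφD, ?_⟩
  -- the module `Q` with its Galois action and `T_p`
  have hQG : ∀ g : GQ, ∀ x ∈ eigQ N p S hNS a, gal N p g x ∈ eigQ N p S hNS a :=
    fun g x hx => gal_mem_eigQ g hx
  have hmS : ∀ q : ℕ, q.Prime → q ∣ p → q ∈ S := fun q hq hqp =>
    ((Nat.prime_dvd_prime_iff_eq hq hp).1 hqp) ▸ hpS
  have hTQ : ∀ x ∈ eigQ N p S hNS a, kumTl N p hp hpN x ∈ eigQ N p S hNS a :=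
    fun x hx => end_mem_eigQ hmS (kumTl N p hp hpN) (fun σ y => kumTl_gal N p hp hpN σ y) hx
  let act : GQ →* Module.End (ZMod p) (eigQ N p S hNS a) :=
    actSub (gal N p) (eigQ N p S hNS a) hQG
  let t : Module.End (ZMod p) (eigQ N p S hNS a) := (kumTl N p hp hpN).restrict hTQ
  have hΦ' : ∀ g : GQ, Φ (LinearMap.toMatrixAlgEquiv b (rho W p g)) = act g := by
    intro g
    refine LinearMap.ext fun x => Subtype.ext ?_
    rw [← rhoM_apply]
    exact hΦ g x
  have hact_t : ∀ g : GQ, t * act g = act g * t := by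
    intro g
    refine LinearMap.ext fun x => Subtype.ext ?_
    show kumTl N p hp hpN (gal N p g x) = gal N p g (kumTl N p hp hpN x)
    exact kumTl_gal N p hp hpN g x
  have ht : ∀ m, t * Φ m = Φ m * t := by
    let D : Matrix (Fin 2) (Fin 2) (ZMod p) →ₗ[ZMod p] Module.End (ZMod p) (eigQ N p S hNS a) :=
      (LinearMap.mulLeft (ZMod p) t).comp Φ.toLinearMap -
        (LinearMap.mulRight (ZMod p) t).comp Φ.toLinearMap
    have hD : ∀ m, D m = t * Φ m - Φ m * t := fun m => rfl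
    have hle : Submodule.span (ZMod p) (Set.range (rhoM b)) ≤ LinearMap.ker D := by
      rw [Submodule.span_le]
      rintro _ ⟨g, rfl⟩
      show D (rhoM b g) = 0
      rw [hD, rhoM_apply, hΦ' g, hact_t g, sub_self]
    intro m
    have hm : m ∈ LinearMap.ker D := hle (by
      rw [span_rhoM_eq_top hcard hirr hp2 b h0 h1]
      exact Submodule.mem_top)
    have h2 : D m = 0 := hm
    rw [hD] at h2
    exact sub_eq_zero.1 h2
  -- the kernel of reduction inside `Q`
  let κ : Additive (Kum Qb (FK N) p) →+ _ := (reductionModL A N).comp (kumJ N p)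
  let K : AddSubgroup (eigQ N p S hNS a) :=
    κ.ker.comap (eigQ N p S hNS a).subtype.toAddMonoidHom
  have hES : ∀ z : eigQ N p S hNS a, act φ z - t z ∈ K := by
    intro z
    show κ ((act φ z - t z : eigQ N p S hNS a) : Additive (Kum Qb (FK N) p)) = 0
    exact hE N p hpN (fun h => absurd h hp2) h3 A hA φ hφ (z : Additive (Kum Qb (FK N) p))
  -- (NU) for `K`
  have hX : ExactDvd p (N * p) := exactDvd_mul_self hp hpN
  have hside : p = 3 → 2 ∣ N * p := fun h => Dvd.dvd.mul_right (h3 h) p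
  have hCE := Fermat.Agent.GS.Top.FramePlug.hasCE_of_frameNode hp2 hX
    (Fermat.Agent.GS.Top.FrameNodeAll.frameNode_all p (N * p) hX hp2 hside) A hA
  let f : eigQ N p S hNS a →+ JZero (N * p) :=
    (kumJ (N * p) p).comp ((aUp N p p).toAddMonoidHom.comp
      (eigQ N p S hNS a).subtype.toAddMonoidHom)
  have hf : ∀ x : eigQ N p S hNS a,
      f x = kumJ (N * p) p (aUp N p p (x : Additive (Kum Qb (FK N) p))) := fun _ => rfl
  have hf_inj : Function.Injective f := by
    intro x y hxy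
    rw [hf, hf] at hxy
    exact Subtype.ext (UpInj.aUp_injective_self hp hpN (kumJ_injective (N * p) p hxy))
  have hf_gal : ∀ (σ : GQ) (x : eigQ N p S hNS a), σ • f x = f (act σ x) := by
    intro σ x
    rw [hf, hf, ← kumJ_gal, ← aUp_gal]
    rfl
  have hKCE : HasCE (↑(A.inertiaSubgroupIn ℚ) : Set GQ)
      (fun (g : GQ) (x : eigQ N p S hNS a) => act g x) K := by
    intro N' hN'st w hw hwN'
    have hmem : f w ∈ N'.map f := by
      refine hCE (N'.map f) ?_ (f w) ?_ ?_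
      · rintro σ hσ _ ⟨x, hx, rfl⟩
        exact ⟨act σ x, hN'st σ hσ x hx, (hf_gal σ x).symm⟩
      · have hw' : reductionModL A N (kumJ N p (w : Additive (Kum Qb (FK N) p))) = 0 := hw
        have h1 := hK N p hpN (fun h => absurd h hp2) h3 A hA hX
          (w : Additive (Kum Qb (FK N) p)) hw'
        exact mem_M0Kum.1 h1
      · intro σ hσ
        refine ⟨act σ w - w, hwN' σ hσ, ?_⟩
        rw [map_sub, ← hf_gal σ w]
    obtain ⟨x, hx, hxw⟩ := hmem
    exact hf_inj hxw ▸ hx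
  -- the abstract core
  have key : t = δ φ • (1 : Module.End (ZMod p) (eigQ N p S hNS a)) :=
    Abs.eq_smul_one_of_line b Φ (rho W p) act hΦ' t ht L hLne
      (↑(A.inertiaSubgroupIn ℚ) : Set GQ) φ (δ φ) hLI
      (fun σ hσ v hv => hLst σ
        (Fermat.Agent.S05.mem_decompositionSubgroup_of_mem_inertiaSubgroupIn hσ) v hv)
      (hLD φ hφD) K hKCE hES
  intro x hx
  have h := LinearMap.congr_fun key ⟨x, hx⟩
  have h' := congrArg (Subtype.val) h
  simpa [t, LinearMap.restrict_apply] using h'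

end Fermat.Agent.GE8.RaiseP.Deligne.Main
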