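/-
GATE-E (S59 pre-work) / node E8.5 (i) DELIGNE-MODP, THE ASSEMBLY (helper25; design: board 6853,
statements: board 6948; claims row GE8-5-DELIGNE-MODP).

`Main.claim_of : ESpStmt → KerUpStmt → ClaimStmt` with its two inputs discharged:

* `esp        : Stmt.ESpStmt`    := helper80's `ESp.red_gal_sub_kumTl` (Eichler–Shimura AT `p`);
* `kerUpStmt  : Stmt.KerUpStmt`  := helper65's `KerUp.kerUp` (ker(red) goes up into `M⁰_p`);
* **`claim    : Stmt.ClaimStmt`** — BINDER-FREE: `W/ℤ` multiplicative at `p ≠ 2`, `ρ̄_{W,p}`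
  irreducible, `p ∤ N` (`p = 3 → 2 ∣ N`): `T_p = kumTl N p` acts on `eigQ N p S a ⊆ Kum_p(F_N)`
  (`p ∈ S`) as a scalar `ε = ± 1`;
* `claim_plug_shape (hp2)` — the same in the literal shape of helper80's `RaiseP/Plug.ClaimStmt p`
  (`S := primes of N ∪ {p} ∪ primes of Δ_W`, `a := a_ℓ(W)`, `ε² = 1`); `ClaimPlug.lean` feeds it
  to `Plug.deligneModPStmt_of_claim` / `Plug.raisePStmt_of_claim`.
-/
import Fermat.Agent.GE8.RaiseP.Deligne.Main
import Fermat.Agent.GE8.RaiseP.Deligne.ESp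
import Fermat.Agent.GE8.RaiseP.Deligne.KerUp
import Fermat.Prelude.Def_FLTPrelim_ModularRep

set_option autoImplicit false

noncomputable section

namespace Fermat.Agent.GE8.RaiseP.Deligne.Claim

open Fermat.Agent.GE8.RaiseP.Deligne.Stmt
open Fermat.Agent.GB.A.A6.EigQ Fermat.Agent.GK.UQ

/-- **(E)** Eichler–Shimura AT `p` (helper80, `ESp.lean`) in the spelling of `Stmt.ESpStmt`. -/
theorem esp : ESpStmt := by
  intro N _ p _ hpN h2 h3 A hA φ hφ z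
  exact ESp.red_gal_sub_kumTl N (Fact.out : p.Prime) hpN h2 h3 A hA hφ z

/-- **(K)** the kernel of reduction goes up into `M⁰_p` (helper65, `KerUp.lean`). -/
theorem kerUpStmt : KerUpStmt := KerUp.kerUp

/-- **THE CLAIM, binder-free**: `T_p = ε = ± 1` on the `ρ̄_W`-eigenspace of `Kum_p(F_N)`, `p ∤ N`,
`W` multiplicative at `p`. -/
theorem claim : ClaimStmt := Main.claim_of esp kerUpStmt

/-- the finite set of primes `{primes of N} ∪ {p} ∪ {primes of Δ_W}`. -/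
def SW (W : WeierstrassCurve ℤ) (N p : ℕ) : Finset ℕ :=
  N.primeFactors ∪ insert p W.Δ.natAbs.primeFactors

theorem hNS (W : WeierstrassCurve ℤ) (N p : ℕ) [NeZero N] :
    ∀ q : ℕ, q.Prime → q ∣ N → q ∈ SW W N p := fun _ hq hqN =>
  Finset.mem_union_left _ (Nat.mem_primeFactors.mpr ⟨hq, hqN, NeZero.ne N⟩)

theorem hpS (W : WeierstrassCurve ℤ) (N p : ℕ) : p ∈ SW W N p :=
  Finset.mem_union_right _ (Finset.mem_insert_self _ _)

theorem hΔS (W : WeierstrassCurve ℤ) (N p : ℕ) (hΔ : W.Δ ≠ 0) :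
    ∀ ℓ : ℕ, ℓ.Prime → (ℓ : ℤ) ∣ W.Δ → ℓ ∈ SW W N p :=
  fun _ hℓ h => Finset.mem_union_right _ (Finset.mem_insert_of_mem
    (Nat.mem_primeFactors.mpr ⟨hℓ, Int.natCast_dvd.mp h, Int.natAbs_ne_zero.mpr hΔ⟩))

/-- **the CLAIM in the literal shape of `RaiseP/Plug.ClaimStmt p`** (helper80). -/
theorem claim_plug_shape {p : ℕ} [Fact p.Prime] (hp2 : p ≠ 2) :
    ∀ (W : WeierstrassCurve ℤ), W.Δ ≠ 0 → (p : ℤ) ∣ W.Δ → ¬ (p : ℤ) ∣ W.c₄ →
      W.ModRepIsIrreducible p →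
      ∀ (N : ℕ) [NeZero N] (hpN : ¬ p ∣ N), (p = 3 → 2 ∣ N) →
      W.IsResiduallyModularOfLevel p N →
      ∃ (S : Finset ℕ) (hNS : ∀ q : ℕ, q.Prime → q ∣ N → q ∈ S), p ∈ S ∧
        (∀ ℓ : ℕ, ℓ.Prime → (ℓ : ℤ) ∣ W.Δ → ℓ ∈ S) ∧
        ∃ ε : ZMod p, ε ^ 2 = 1 ∧
          ∀ z ∈ eigQ N p S hNS (fun ℓ => W.apOfModel ℓ),
            kumTl N p (Fact.out : p.Prime) hpN z = ε • z := by
  intro W hΔ hpΔ hc₄ hirr N _ hpN hside _
  obtain ⟨ε, hε, hcl⟩ := claim W hΔ p hp2 hpΔ hc₄ hirr N hpN hside (SW W N p) (hNS W N p)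
    (hpS W N p) (fun ℓ => W.apOfModel ℓ) (fun _ _ _ _ => rfl)
  refine ⟨SW W N p, hNS W N p, hpS W N p, hΔS W N p hΔ, ε, ?_, hcl⟩
  rcases hε with rfl | rfl
  · exact one_pow 2
  · exact neg_one_sq

end Fermat.Agent.GE8.RaiseP.Deligne.Claim
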