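/-
GATE-E (S59 pre-work) / E8.5 (i) DELIGNE-MODP, leaf (F) of helper25's route (board 6853), abstract
half (helper80; claims row GE8-5-DELIGNE-F).  Mathlib-only.

`F ⊆ k0` fields, `K` an `F`-vector space, `T i` (`i : ι'`) and `T0` endomorphisms of `K`.  If `T0`
acts as the scalar `ε ∈ F` on the common eigenspace `E = ⋂ ker (T i − a i)` (`a i ∈ F`), then every
common eigenvector `V ≠ 0` of the base changes in `k0 ⊗_F K`, with eigenvalues `a i` for `T i` and
`α ∈ k0` for `T0`, has `α = ε`.

(Application: `F = 𝔽_p`, `K = Kum_p(F_N)`, `T i = T_ℓ` for `ℓ ∉ S`, `a ℓ = a_ℓ(W)`, `T0 = T_p`,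
`E = eigQ`, `V` the vector of (EIG) for `θ̄_f` on the Hecke algebra with `p ∉ S'`, `α = ā_p(f)`.)
-/
import Mathlib

set_option autoImplicit false

namespace Fermat.Agent.GE8.RaiseP.Deligne.EigenAbs

open TensorProduct

variable {F : Type*} [Field F] {k0 : Type*} [Field k0] [Algebra F k0]
  {K : Type*} [AddCommGroup K] [Module F K]

/-- the coordinates of `k0 ⊗_F K` in an `F`-basis of `k0` commute with base-changed
endomorphisms. -/
theorem equivFinsupp_baseChange {ι : Type*} [DecidableEq ι] (b : Module.Basis ι F k0) (T : Module.End F K)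
    (V : k0 ⊗[F] K) (j : ι) :
    TensorProduct.equivFinsuppOfBasisLeft b (T.baseChange k0 V) j =
      T (TensorProduct.equivFinsuppOfBasisLeft b V j) := by
  induction V using TensorProduct.induction_on with
  | zero => simp
  | tmul c x =>
    rw [LinearMap.baseChange_tmul, TensorProduct.equivFinsuppOfBasisLeft_apply_tmul_apply,
      TensorProduct.equivFinsuppOfBasisLeft_apply_tmul_apply, map_smul]
  | add x y hx hy =>
    rw [map_add, map_add, map_add, Finsupp.add_apply, Finsupp.add_apply, hx, hy, map_add]

/-- **the eigenvalue of `T0` on a common eigenvector over `k0` is the scalar by which `T0` acts on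
the common eigenspace over `F`.** -/
theorem eigenvalue_eq_of_scalar_on_eigenspace {ι' : Type*} (T : ι' → Module.End F K)
    (a : ι' → F) (T0 : Module.End F K) (ε : F)
    (hT0 : ∀ z : K, (∀ i, T i z = a i • z) → T0 z = ε • z)
    (V : k0 ⊗[F] K) (hV : V ≠ 0)
    (hrel : ∀ i, (T i).baseChange k0 V = algebraMap F k0 (a i) • V)
    (α : k0) (h0 : T0.baseChange k0 V = α • V) : α = algebraMap F k0 ε := by
  classical
  set b := Module.Free.chooseBasis F k0 with hb
  set Ψ := TensorProduct.equivFinsuppOfBasisLeft (R := F) (N := K) b with hΨ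
  -- every coordinate of `V` lies in the common eigenspace
  have hcoord : ∀ j, ∀ i, T i (Ψ V j) = a i • Ψ V j := by
    intro j i
    rw [← equivFinsupp_baseChange b (T i) V j, hrel i, algebraMap_smul, map_smul,
      Finsupp.smul_apply]
  -- hence `T0` acts by `ε` on every coordinate
  have h1 : T0.baseChange k0 V = ε • V := by
    apply Ψ.injective
    ext j
    rw [hΨ, equivFinsupp_baseChange b T0 V j, map_smul, Finsupp.smul_apply]
    exact hT0 _ (hcoord j)
  have h2 : (α - algebraMap F k0 ε) • V = 0 := by
    refine (sub_smul α (algebraMap F k0 ε) V).trans ?_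
    rw [← h0, h1, algebraMap_smul, sub_self]
  rcases smul_eq_zero.mp h2 with h3 | h3
  · exact sub_eq_zero.mp h3
  · exact absurd h3 hV

end Fermat.Agent.GE8.RaiseP.Deligne.EigenAbs
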