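/-
GATE-E (S59 pre-work) / E8.5 (i) DELIGNE-MODP, leaf (F) of helper25's route (board 6853)
(helper80; claims row GE8-5-DELIGNE-F).

**The eigenform form of the CLAIM.**  `W : WeierstrassCurve ℤ`, `p ∤ N`, `S ∋ p` a finite set of
primes containing the primes of `N` and the bad primes of `W`,
`E := eigQ N p S hNS a_W ⊆ Kum_p(F_N)`.

CLAIM (helper25, `Deligne/Main.lean`): `T_p := kumTl N p hp hpN` acts on `E` as a scalar `ε ∈ ℤ`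
(`ε = ±1`).

HERE: if `f` is a normalized eigenform of level `N` congruent to `W` modulo `𝔪 ∣ p` (the body of
`W.IsResiduallyModularOfLevel p N`), then `a_p(f) ≡ ε (mod 𝔪)`:

* `ap_sub_mem_of_claim` : `∃ a : ℤ̄, (a : ℂ) = a_p(f) ∧ a − e ∈ 𝔪` for every integer `e ≡ ε (p)`
  (`ε : ZMod p`);
* `hap_of_claim`        : with `ε² = 1`, `∃ a, (a : ℂ) = a_p(f) ∧ a² − 1 ∈ 𝔪` — VERBATIM the binder
  `hap` of `RaiseP.exists_pNew_of_model` (`GE8/RaiseP/Core.lean`).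

Proof: (EIG) (`GJ/J2/EigFinal.eig`) for the Hecke algebra `𝕋^{S'}(N)` with `S' := S \ {p}` — so that
`T_p ∈ 𝕋^{S'}(N)` — and the finite residue datum `θ : 𝕋^{S'}(N) → k0` of `f`
(`GJ/J4/EigChar.exists_residue_datum`) give `0 ≠ V ∈ k0 ⊗ Kum_p(F_N)` with `T_ℓ V = a_ℓ(W) V`
(`ℓ ∉ S`) and `T_p V = ā_p(f) V`; the coordinates of `V` in an `𝔽_p`-basis of `k0` lie in `E`
(`EigenAbs.eigenvalue_eq_of_scalar_on_eigenspace`), hence `ā_p(f) = ε`.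
-/
import Mathlib
import Fermat.Agent.GE8.RaiseP.Deligne.EigenAbs
import Fermat.Agent.GB.A.A6.Supply

set_option autoImplicit false
set_option linter.unusedSectionVars false

noncomputable section

namespace Fermat.Agent.GE8.RaiseP.Deligne.Eigen

open AlgebraicCurve TensorProduct CuspForm
open Fermat.Agent.GJ Fermat.Agent.GJ.KumGroup Fermat.Agent.GJ.Kum.KumType
open Fermat.Agent.GJ.Kum.EigAdapter Fermat.Agent.GJ.EigChar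
open Fermat.Agent.GK.UQ Fermat.Agent.GK.New
open Fermat.Agent.GB.A.A6.EigQ
open Fermat.Agent.GB.Setup.RhoBar Fermat.Agent.GB.Setup.Theta

/-- `ℤ̄ ⊆ ℂ`. -/
local notation "Zbar" => integralClosure ℤ ℂ

/-- **`a_p(f) ≡ ε (mod 𝔪)`** from the CLAIM `T_p = ε` on `eigQ`, `ModData` form. -/
theorem ap_sub_mem_of_claim_modData (W : WeierstrassCurve ℤ) {p N : ℕ} [NeZero N] [Fact p.Prime]
    (hp : p.Prime) (hpN : ¬ p ∣ N) (S : Finset ℕ)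
    (hNS : ∀ q : ℕ, q.Prime → q ∣ N → q ∈ S) (hpS : p ∈ S)
    (hΔS : ∀ ℓ : ℕ, ℓ.Prime → (ℓ : ℤ) ∣ W.Δ → ℓ ∈ S)
    (ε : ZMod p)
    (hclaim : ∀ z ∈ eigQ N p S hNS (fun ℓ => W.apOfModel ℓ),
      kumTl N p hp hpN z = ε • z)
    (D : ModData W p N) :
    ∃ a : Zbar, (a : ℂ) = ModularFormClass.qCoeff D.f p ∧
      ∀ e : ℤ, ((e : ℤ) : ZMod p) = ε → a - ((e : ℤ) : Zbar) ∈ D.𝔪 := by
  classical
  have hf := D.hf
  set S' : Set ℕ := {ℓ | ℓ ∈ S ∧ ℓ ≠ p} with hS'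
  have hNS' : ∀ ℓ : ℕ, ℓ.Prime → ℓ ∣ N → ℓ ∈ S' :=
    fun ℓ hℓ h => ⟨hNS ℓ hℓ h, fun e => hpN (e ▸ h)⟩
  have hpS' : p ∉ S' := fun h => h.2 rfl
  have hSS' : ∀ ℓ : ℕ, ℓ ∉ S → ℓ ∉ S' := fun ℓ h h' => h h'.1
  -- the finite residue datum
  obtain ⟨k0, i1, i2, i3, ι, θ, hθ⟩ := exists_residue_datum (S := S') (k := D.κ) hf hp D.φ
  let _ : Algebra (ZMod p) k0 := ZMod.algebra k0 p
  -- (EIG)
  obtain ⟨n, c, u, hne, hrel⟩ := Fermat.Agent.GJ.EigAsm.eig N p S' hNS' k0 θ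
  set x : Fin n → Additive (Kum Kb (FK N) p) := fun i => Additive.ofMul (Kum.mk (u i)) with hx
  set V : k0 ⊗[ZMod p] Additive (Kum Kb (FK N) p) := ∑ i, c i ⊗ₜ[ZMod p] x i with hVdef
  have hV : V ≠ 0 := sum_tmul_ne_zero p k0 (Additive (Kum Kb (FK N) p)) c x hne
  -- the Hecke relations on `V`
  have hT : ∀ (ℓ : ℕ) (hℓ : ℓ.Prime) (hℓN : ¬ ℓ ∣ N) (hℓS : ℓ ∉ S'),
      (kumTl N p hℓ hℓN).baseChange k0 V = θ (heckeAlgebra.T hℓ hℓN hℓS) • V := by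
    intro ℓ hℓ hℓN hℓS
    obtain ⟨u', hu', hrel'⟩ := hrel ℓ hℓ hℓN hℓS
    have hTx : ∀ j, kumTl N p hℓ hℓN (x j) = Additive.ofMul (Kum.mk (u' j)) := by
      intro j
      have : NeZero ℓ := ⟨hℓ.ne_zero⟩
      show TEnd _ _ (Additive.ofMul (Kum.mk (u j))) = _
      rw [TEnd_mk]
      refine congrArg (fun v => Additive.ofMul (Kum.mk v))
        (Subtype.ext (Units.ext (Subtype.ext ?_)))
      exact (hu' j).symm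
    refine baseChange_eq_smul_of_rel p k0 (Additive (Kum Kb (FK N) p)) (kumTl N p hℓ hℓN)
      (θ (heckeAlgebra.T hℓ hℓN hℓS)) c x ?_
    simp only [hTx]
    exact hrel'
  -- `ι` is injective
  have hι : Function.Injective ι := ι.injective
  -- the eigenvalues away from `S` are those of `W`
  have hθW : ∀ (ℓ : ℕ) (hℓ : ℓ.Prime) (hℓS : ℓ ∉ S) (hℓN : ¬ ℓ ∣ N),
      θ (heckeAlgebra.T hℓ hℓN (hSS' ℓ hℓS)) =
        algebraMap (ZMod p) k0 ((W.apOfModel ℓ : ℤ) : ZMod p) := by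
    intro ℓ hℓ hℓS hℓN
    apply hι
    have hgood : W.IsGoodPrimeFor ℓ := by
      by_contra h
      exact hℓS (hΔS ℓ hℓ (not_not.1 h))
    have hℓp : ℓ ≠ p := fun h => hℓS (h ▸ hpS)
    have h1 := thetaκ_T D S' hℓ hℓN (hSS' ℓ hℓS) hgood hℓp
    rw [hθ, map_intCast, map_intCast]
    exact h1
  -- the abstract lemma
  have key := EigenAbs.eigenvalue_eq_of_scalar_on_eigenspace (F := ZMod p) (k0 := k0)
    (K := Additive (Kum Kb (FK N) p)) (ι' := PrimeIdx S)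
    (fun i => kumTl N p i.2.1 (PrimeIdx.not_dvd hNS i))
    (fun i => ((W.apOfModel i.1 : ℤ) : ZMod p)) (kumTl N p hp hpN) ε
    (fun z hz => hclaim z (mem_eigQ.2 hz)) V hV
    (fun i => by
      rw [hT i.1 i.2.1 (PrimeIdx.not_dvd hNS i) (hSS' i.1 i.2.2),
        hθW i.1 i.2.1 i.2.2 (PrimeIdx.not_dvd hNS i)])
    (θ (heckeAlgebra.T hp hpN hpS')) (hT p hp hpN hpS')
  -- conclusion
  refine ⟨lamInt hf (heckeAlgebra.T hp hpN hpS'), by rw [coe_lamInt, lam_T], ?_⟩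
  intro e he
  have h2 : D.φ (lamInt hf (heckeAlgebra.T hp hpN hpS')) = D.φ (((e : ℤ) : Zbar)) := by
    rw [← hθ, key, ← he, map_intCast, map_intCast, map_intCast]
  have h3 : D.φ (lamInt hf (heckeAlgebra.T hp hpN hpS') - ((e : ℤ) : Zbar)) = 0 := by
    rw [map_sub, h2, sub_self]
  exact Ideal.Quotient.eq_zero_iff_mem.mp h3

/-- **`a_p(f) ≡ ε (mod 𝔪)`** from the CLAIM `T_p = ε` on `eigQ`. -/
theorem ap_sub_mem_of_claim (W : WeierstrassCurve ℤ) {p N : ℕ} [NeZero N] [Fact p.Prime]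
    (hp : p.Prime) (hpN : ¬ p ∣ N) (S : Finset ℕ)
    (hNS : ∀ q : ℕ, q.Prime → q ∣ N → q ∈ S) (hpS : p ∈ S)
    (hΔS : ∀ ℓ : ℕ, ℓ.Prime → (ℓ : ℤ) ∣ W.Δ → ℓ ∈ S)
    (ε : ZMod p)
    (hclaim : ∀ z ∈ eigQ N p S hNS (fun ℓ => W.apOfModel ℓ),
      kumTl N p hp hpN z = ε • z)
    (f : CuspForm (CongruenceSubgroup.Gamma0 N) 2) (𝔪 : Ideal Zbar)
    (hf : f.IsNormalizedEigenform) (hmax : 𝔪.IsMaximal) (hpm : (p : Zbar) ∈ 𝔪)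
    (hcong : ∀ ℓ : ℕ, ℓ.Prime → W.IsGoodPrimeFor ℓ → ¬ ℓ ∣ N → ℓ ≠ p →
      ∃ a : Zbar, (a : ℂ) = ModularFormClass.qCoeff f ℓ ∧
        a - ((W.apOfModel ℓ : ℤ) : Zbar) ∈ 𝔪) :
    ∃ a : Zbar, (a : ℂ) = ModularFormClass.qCoeff f p ∧
      ∀ e : ℤ, ((e : ℤ) : ZMod p) = ε → a - ((e : ℤ) : Zbar) ∈ 𝔪 :=
  ap_sub_mem_of_claim_modData W hp hpN S hNS hpS hΔS ε hclaim
    { f := f, 𝔪 := 𝔪, hf := hf, hmax := hmax, hp := hpm, hcong := hcong }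

/-- **the binder `hap` of `RaiseP.exists_pNew_of_model`** from the CLAIM with `ε² = 1`. -/
theorem hap_of_claim (W : WeierstrassCurve ℤ) {p N : ℕ} [NeZero N] [Fact p.Prime]
    (hp : p.Prime) (hpN : ¬ p ∣ N) (S : Finset ℕ)
    (hNS : ∀ q : ℕ, q.Prime → q ∣ N → q ∈ S) (hpS : p ∈ S)
    (hΔS : ∀ ℓ : ℕ, ℓ.Prime → (ℓ : ℤ) ∣ W.Δ → ℓ ∈ S)
    (ε : ZMod p) (hε : ε ^ 2 = 1)
    (hclaim : ∀ z ∈ eigQ N p S hNS (fun ℓ => W.apOfModel ℓ),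
      kumTl N p hp hpN z = ε • z)
    (f : CuspForm (CongruenceSubgroup.Gamma0 N) 2) (𝔪 : Ideal Zbar)
    (hf : f.IsNormalizedEigenform) (hmax : 𝔪.IsMaximal) (hpm : (p : Zbar) ∈ 𝔪)
    (hcong : ∀ ℓ : ℕ, ℓ.Prime → W.IsGoodPrimeFor ℓ → ¬ ℓ ∣ N → ℓ ≠ p →
      ∃ a : Zbar, (a : ℂ) = ModularFormClass.qCoeff f ℓ ∧
        a - ((W.apOfModel ℓ : ℤ) : Zbar) ∈ 𝔪) :
    ∃ a : Zbar, (a : ℂ) = ModularFormClass.qCoeff f p ∧ a ^ 2 - 1 ∈ 𝔪 := by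
  obtain ⟨a, ha, hmem⟩ := ap_sub_mem_of_claim W hp hpN S hNS hpS hΔS ε hclaim f 𝔪 hf hmax hpm hcong
  obtain ⟨e, he⟩ := ZMod.intCast_surjective ε
  refine ⟨a, ha, ?_⟩
  -- `p ∣ e² − 1`
  have hdvd : (p : ℤ) ∣ e ^ 2 - 1 := by
    rw [← ZMod.intCast_zmod_eq_zero_iff_dvd]
    push_cast
    rw [he, hε, sub_self]
  obtain ⟨c, hc⟩ := hdvd
  have h1 : a ^ 2 - 1 = (a - ((e : ℤ) : Zbar)) * (a + ((e : ℤ) : Zbar)) +
      (p : Zbar) * ((c : ℤ) : Zbar) := by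
    have h2 : (((e ^ 2 - 1 : ℤ) : ℤ) : Zbar) = (p : Zbar) * ((c : ℤ) : Zbar) := by
      rw [hc]
      push_cast
      ring
    have h3 : a ^ 2 - 1 = (a - ((e : ℤ) : Zbar)) * (a + ((e : ℤ) : Zbar)) +
        (((e ^ 2 - 1 : ℤ) : ℤ) : Zbar) := by
      push_cast
      ring
    rw [h3, h2]
  rw [h1]
  exact 𝔪.add_mem (𝔪.mul_mem_right _ (hmem e he)) (𝔪.mul_mem_right _ hpm)

/-- the same with `ε : ℤ` (`ε² = 1` in `ℤ`, i.e. `ε = ±1`). -/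
theorem hap_of_claim_int (W : WeierstrassCurve ℤ) {p N : ℕ} [NeZero N] [Fact p.Prime]
    (hp : p.Prime) (hpN : ¬ p ∣ N) (S : Finset ℕ)
    (hNS : ∀ q : ℕ, q.Prime → q ∣ N → q ∈ S) (hpS : p ∈ S)
    (hΔS : ∀ ℓ : ℕ, ℓ.Prime → (ℓ : ℤ) ∣ W.Δ → ℓ ∈ S)
    (ε : ℤ) (hε : ε ^ 2 = 1)
    (hclaim : ∀ z ∈ eigQ N p S hNS (fun ℓ => W.apOfModel ℓ),
      kumTl N p hp hpN z = ((ε : ℤ) : ZMod p) • z)
    (f : CuspForm (CongruenceSubgroup.Gamma0 N) 2) (𝔪 : Ideal Zbar)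
    (hf : f.IsNormalizedEigenform) (hmax : 𝔪.IsMaximal) (hpm : (p : Zbar) ∈ 𝔪)
    (hcong : ∀ ℓ : ℕ, ℓ.Prime → W.IsGoodPrimeFor ℓ → ¬ ℓ ∣ N → ℓ ≠ p →
      ∃ a : Zbar, (a : ℂ) = ModularFormClass.qCoeff f ℓ ∧
        a - ((W.apOfModel ℓ : ℤ) : Zbar) ∈ 𝔪) :
    ∃ a : Zbar, (a : ℂ) = ModularFormClass.qCoeff f p ∧ a ^ 2 - 1 ∈ 𝔪 :=
  hap_of_claim W hp hpN S hNS hpS hΔS ((ε : ℤ) : ZMod p)
    (by rw [← Int.cast_pow, hε, Int.cast_one]) hclaim f 𝔪 hf hmax hpm hcong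

end Fermat.Agent.GE8.RaiseP.Deligne.Eigen
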