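/-
GATE-E (S59 pre-work) / node E8.5 (i) DELIGNE-MODP + RAISE-P, THE PLUG (helper25; claims row
GE8-5-DELIGNE-MODP).  `Deligne/Claim.claim_plug_shape` fed to helper80's `RaiseP/Plug.lean`:

* `plugClaim (hp2) : Plug.ClaimStmt p`;
* **`deligneModP (hp2) : Stmt.DeligneModPStmt p`** — (i) DELIGNE-MODP is a THEOREM:
  `f` eigenform of level `N`, `p ∤ N`, congruent to `W` (multiplicative at `p`) mod `𝔪 ∣ p`
  ⟹ `a_p(f)² ≡ 1 (mod 𝔪)`;
* **`raiseP (hp2) : Stmt.RaisePStmt p`** — RAISE-P in the residual vocabulary is a THEOREM: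
  `W` multiplicative at `p`, residually modular of level `N` prime to `p` ⟹ residually modular of
  level `N p` through a `p`-NEW form.
-/
import Fermat.Agent.GE8.RaiseP.Deligne.Claim
import Fermat.Agent.GE8.RaiseP.Plug

set_option autoImplicit false

namespace Fermat.Agent.GE8.RaiseP.Deligne.ClaimPlug

/-- **the CLAIM in the spelling of `RaiseP/Plug.lean`** (helper80). -/
theorem plugClaim {p : ℕ} [Fact p.Prime] (hp2 : p ≠ 2) :
    Fermat.Agent.GE8.RaiseP.Plug.ClaimStmt p :=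
  Fermat.Agent.GE8.RaiseP.Deligne.Claim.claim_plug_shape hp2

/-- **(i) DELIGNE-MODP is a theorem** (`p` odd). -/
theorem deligneModP {p : ℕ} [Fact p.Prime] (hp2 : p ≠ 2) :
    Fermat.Agent.GE8.RaiseP.Stmt.DeligneModPStmt p :=
  Fermat.Agent.GE8.RaiseP.Plug.deligneModPStmt_of_claim (plugClaim hp2)

/-- **RAISE-P (residual vocabulary) is a theorem** (`p` odd). -/
theorem raiseP {p : ℕ} [Fact p.Prime] (hp2 : p ≠ 2) :
    Fermat.Agent.GE8.RaiseP.Stmt.RaisePStmt p :=
  Fermat.Agent.GE8.RaiseP.Plug.raisePStmt_of_claim hp2 (plugClaim hp2)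

end Fermat.Agent.GE8.RaiseP.Deligne.ClaimPlug
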