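/-
GATE-E / E8.5 (i) DELIGNE-MODP, the ABSTRACT CORE (helper25; design: board 6853).

Dictionary: `E` = the `ρ̄`-eigenspace `eigQ N p S a_W ⊆ Kum_p(F_N) = J₀(N)[p]` (`p ∤ N`), a module over
`M₂(𝔽_p)` compatibly with `G_ℚ` by Boston–Lenstra–Ribet (`Φ`, `GB/A/A6/Inertia.exists_algHom_eigQ`);
`t = T_p`; `K` = the kernel of reduction at `A ∣ p` inside `E`, which has no inertia-trivial
subquotient (`HasCE`, transferred from GATE-S's (NU) at level `N p`); `φ` a Frobenius at `A`;
`L ⊂ W[p]` the Tate line (`(σ - 1) W[p] ⊆ L` for `σ ∈ I_A`, `(φ - ε) W[p] ⊆ L`, `ε = ±1`).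
Eichler–Shimura at `ℓ = p` on the reduction gives `φ z - T_p z ∈ K` for all `z`.

* `eq_zero_of_mul_map_eq_zero` : `M₂(k)` is simple: an endomorphism commuting with `Φ` and killed by
  `Φ f`, `f ≠ 0`, is zero;
* `eq_smul_one_of_hasCE` : matrix form: `T_p = ε` on `E`;
* `eq_smul_one_of_line` : the same with the line given as a submodule `L ≠ ⊤` of a 2-dimensional
  space with a basis.

Mathlib + `GS/Old/CeTransfer` (`HasCE`) only.
-/
import Mathlib
import Fermat.Agent.GS.Old.CeTransfer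

set_option autoImplicit false

namespace Fermat.Agent.GE8.RaiseP.Deligne.Abs

open Matrix Fermat.Agent.GS.Old

section Core

variable {k : Type*} [Field k] {G : Type*} [Group G]
variable {E : Type*} [AddCommGroup E] [Module k E]

/-- `M₂(k)` is a simple ring: an endomorphism `s` commuting with `Φ(M₂(k))` with `s ∘ Φ f = 0` for
some `f ≠ 0` is zero. -/
theorem eq_zero_of_mul_map_eq_zero
    (Φ : Matrix (Fin 2) (Fin 2) k →ₐ[k] Module.End k E)
    (s : Module.End k E) (hs : ∀ m, s * Φ m = Φ m * s)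
    {f : Matrix (Fin 2) (Fin 2) k} (hf : f ≠ 0) (hsf : s * Φ f = 0) : s = 0 := by
  let J : TwoSidedIdeal (Matrix (Fin 2) (Fin 2) k) :=
    TwoSidedIdeal.mk' {m | s * Φ m = 0}
      (by show s * Φ 0 = 0; rw [map_zero, mul_zero])
      (fun {x y} hx hy => by
        show s * Φ (x + y) = 0
        have hx' : s * Φ x = 0 := hx
        have hy' : s * Φ y = 0 := hy
        rw [map_add, mul_add, hx', hy', add_zero])
      (fun {x} hx => by
        show s * Φ (-x) = 0
        have hx' : s * Φ x = 0 := hx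
        rw [map_neg, mul_neg, hx', neg_zero])
      (fun {x y} hy => by
        show s * Φ (x * y) = 0
        have hy' : s * Φ y = 0 := hy
        rw [map_mul, ← mul_assoc, hs x, mul_assoc, hy', mul_zero])
      (fun {x y} hx => by
        show s * Φ (x * y) = 0
        have hx' : s * Φ x = 0 := hx
        rw [map_mul, ← mul_assoc, hx', zero_mul])
  have hJ : ∀ m, m ∈ J ↔ s * Φ m = 0 := fun m => by
    show m ∈ TwoSidedIdeal.mk' {m | s * Φ m = 0} _ _ _ _ _ ↔ _
    rw [TwoSidedIdeal.mem_mk']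
    rfl
  have hfJ : f ∈ J := (hJ f).2 hsf
  have h1 : (1 : Matrix (Fin 2) (Fin 2) k) ∈ J := IsSimpleRing.one_mem_of_ne_zero_mem J hf hfJ
  have h2 : s * Φ 1 = 0 := (hJ 1).1 h1
  rwa [map_one, mul_one] at h2

/-- **DELIGNE-MODP, abstract matrix form.**  `E` a module over `M₂(k)` (through `Φ`) compatibly with
the action of `G`; `t` commutes with `Φ`; `e` a projector `≠ 1` (onto the line); inertia `I` acts
trivially modulo the line and preserves it; `φ` acts by `ε` modulo the line; `K` has no `I`-trivial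
subquotient and `φ z - t z ∈ K` for all `z`.  Then `t = ε`. -/
theorem eq_smul_one_of_hasCE
    (Φ : Matrix (Fin 2) (Fin 2) k →ₐ[k] Module.End k E)
    (ρ : G →* Matrix (Fin 2) (Fin 2) k) (act : G →* Module.End k E)
    (hΦ : ∀ g, Φ (ρ g) = act g)
    (t : Module.End k E) (ht : ∀ m, t * Φ m = Φ m * t)
    (e : Matrix (Fin 2) (Fin 2) k) (he : e * e = e) (he1 : e ≠ 1)
    (I : Set G) (φ : G) (ε : k)
    (hI : ∀ σ ∈ I, e * (ρ σ - 1) = ρ σ - 1)
    (hIst : ∀ σ ∈ I, e * (ρ σ * e) = ρ σ * e)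
    (hφ : e * (ρ φ - ε • (1 : Matrix (Fin 2) (Fin 2) k)) = ρ φ - ε • (1 : Matrix (Fin 2) (Fin 2) k))
    (K : AddSubgroup E) (hK : HasCE I (fun g x => act g x) K)
    (hES : ∀ z : E, act φ z - t z ∈ K) :
    t = ε • (1 : Module.End k E) := by
  -- the subgroup `E_L = Φ(e) E`
  let N : AddSubgroup E := (LinearMap.range (Φ e)).toAddSubgroup
  have hmemN : ∀ x : E, Φ e x ∈ N := fun x => LinearMap.mem_range_self _ x
  have hNst : ∀ g ∈ I, ∀ u ∈ N, (fun g x => act g x) g u ∈ N := by
    rintro g hg _ ⟨w, rfl⟩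
    show act g (Φ e w) ∈ N
    rw [← hΦ g, ← Module.End.mul_apply, ← map_mul, ← hIst g hg, map_mul, Module.End.mul_apply]
    exact hmemN _
  have hNI : ∀ g ∈ I, ∀ w : E, act g w - w ∈ N := by
    intro g hg w
    have h1 : act g w - w = Φ (ρ g - 1) w := by
      rw [map_sub, map_one, hΦ g, LinearMap.sub_apply, Module.End.one_apply]
    rw [h1, ← hI g hg, map_mul, Module.End.mul_apply]
    exact hmemN _
  have hφN : ∀ z : E, act φ z - ε • z ∈ N := by
    intro z
    have h1 : act φ z - ε • z = Φ (ρ φ - ε • (1 : Matrix (Fin 2) (Fin 2) k)) z := by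
      rw [map_sub, map_smul, map_one, hΦ φ, LinearMap.sub_apply, LinearMap.smul_apply,
        Module.End.one_apply]
    rw [h1, ← hφ, map_mul, Module.End.mul_apply]
    exact hmemN _
  have key : ∀ z : E, t z - ε • z ∈ N := by
    intro z
    have hw : act φ z - t z ∈ N :=
      hK N hNst (act φ z - t z) (hES z) (fun g hg => hNI g hg _)
    have : t z - ε • z = (act φ z - ε • z) - (act φ z - t z) := by abel
    rw [this]
    exact N.sub_mem (hφN z) hw
  -- `s = t - ε`
  have hs : ∀ m, (t - ε • (1 : Module.End k E)) * Φ m = Φ m * (t - ε • (1 : Module.End k E)) := by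
    intro m
    rw [sub_mul, mul_sub, ht m, smul_mul_assoc, mul_smul_comm, one_mul, mul_one]
  have hf : (1 - e : Matrix (Fin 2) (Fin 2) k) ≠ 0 := fun h => he1 (sub_eq_zero.1 h).symm
  have hsf : (t - ε • (1 : Module.End k E)) * Φ (1 - e) = 0 := by
    rw [hs]
    refine LinearMap.ext fun z => ?_
    rw [Module.End.mul_apply, LinearMap.zero_apply, LinearMap.sub_apply, LinearMap.smul_apply,
      Module.End.one_apply]
    obtain ⟨y, hy⟩ := key z
    have hy' : Φ e y = t z - ε • z := hy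
    rw [← hy', ← Module.End.mul_apply, ← map_mul, sub_mul, one_mul, he, sub_self, map_zero,
      LinearMap.zero_apply]
  have h0 := eq_zero_of_mul_map_eq_zero Φ _ hs hf hsf
  exact sub_eq_zero.1 h0

end Core

section Line

variable {k : Type*} [Field k] {G : Type*} [Group G]
variable {E : Type*} [AddCommGroup E] [Module k E]
variable {Wsp : Type*} [AddCommGroup Wsp] [Module k Wsp]

/-- **DELIGNE-MODP, abstract form with a line `L ≠ ⊤`** of a 2-dimensional space `Wsp` with basis
`b` (`Wsp = W[p]`, `ρ = ρ̄`, `Φ ∘ toMatrix b` the BLR structure). -/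
theorem eq_smul_one_of_line (b : Module.Basis (Fin 2) k Wsp)
    (Φ : Matrix (Fin 2) (Fin 2) k →ₐ[k] Module.End k E)
    (ρ : G →* Module.End k Wsp) (act : G →* Module.End k E)
    (hΦ : ∀ g, Φ (LinearMap.toMatrixAlgEquiv b (ρ g)) = act g)
    (t : Module.End k E) (ht : ∀ m, t * Φ m = Φ m * t)
    (L : Submodule k Wsp) (hL : ∃ v : Wsp, v ∉ L)
    (I : Set G) (φ : G) (ε : k)
    (hI : ∀ σ ∈ I, ∀ v : Wsp, ρ σ v - v ∈ L)
    (hIst : ∀ σ ∈ I, ∀ v ∈ L, ρ σ v ∈ L)
    (hφ : ∀ v : Wsp, ρ φ v - ε • v ∈ L)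
    (K : AddSubgroup E) (hK : HasCE I (fun g x => act g x) K)
    (hES : ∀ z : E, act φ z - t z ∈ K) :
    t = ε • (1 : Module.End k E) := by
  obtain ⟨L', hc⟩ := Submodule.exists_isCompl L
  -- the projector onto `L` along `L'`
  let eL : Module.End k Wsp := L.projection L' hc
  have heL_mem : ∀ v, eL v ∈ L := fun v => Submodule.projection_apply_mem hc v
  have heL_id : ∀ v ∈ L, eL v = v := fun v hv => Submodule.projection_apply_of_mem_left hc hv
  let Θ : Module.End k Wsp ≃ₐ[k] Matrix (Fin 2) (Fin 2) k := LinearMap.toMatrixAlgEquiv b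
  have hmul : ∀ {m : Module.End k Wsp}, (∀ v, m v ∈ L) → Θ eL * Θ m = Θ m := by
    intro m hm
    rw [← map_mul]
    congr 1
    exact LinearMap.ext fun v => heL_id _ (hm v)
  refine eq_smul_one_of_hasCE Φ ((Θ : Module.End k Wsp →* Matrix (Fin 2) (Fin 2) k).comp ρ) act
    (fun g => hΦ g) t ht (Θ eL) ?_ ?_ I φ ε ?_ ?_ ?_ K hK hES
  · exact hmul heL_mem
  · intro h
    obtain ⟨v, hv⟩ := hL
    have h1 : eL = 1 := Θ.injective (by rw [h, map_one])
    have h2 : eL v = v := by rw [h1, Module.End.one_apply]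
    exact hv (h2 ▸ heL_mem v)
  · intro σ hσ
    have h1 : (((Θ : Module.End k Wsp →* Matrix (Fin 2) (Fin 2) k).comp ρ) σ - 1) =
        Θ (ρ σ - 1) := by
      rw [map_sub, map_one]; rfl
    rw [h1]
    exact hmul fun v => by
      rw [LinearMap.sub_apply, Module.End.one_apply]; exact hI σ hσ v
  · intro σ hσ
    have h1 : (((Θ : Module.End k Wsp →* Matrix (Fin 2) (Fin 2) k).comp ρ) σ * Θ eL) =
        Θ (ρ σ * eL) := by
      rw [map_mul]; rfl
    rw [h1]
    exact hmul fun v => by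
      rw [Module.End.mul_apply]; exact hIst σ hσ _ (heL_mem v)
  · have h1 : (((Θ : Module.End k Wsp →* Matrix (Fin 2) (Fin 2) k).comp ρ) φ -
        ε • (1 : Matrix (Fin 2) (Fin 2) k)) = Θ (ρ φ - ε • (1 : Module.End k Wsp)) := by
      rw [map_sub, map_smul, map_one]; rfl
    rw [h1]
    exact hmul fun v => by
      rw [LinearMap.sub_apply, LinearMap.smul_apply, Module.End.one_apply]; exact hφ v

end Line

end Fermat.Agent.GE8.RaiseP.Deligne.Abs
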