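/-
GATE-E (S59 pre-work) / E8.5 (i) DELIGNE-MODP, leaf (E) of helper25's route (board 6853)
(helper80; claims row GE8-5-DELIGNE-E).

**Step (1): Eichler–Shimura AT `ℓ = p` in the `Kum` vocabulary.**  `V = Kum_m(F_N)`
(`= J₀(N)[m]` through `kumJ`), `A ∣ ℓ`, `ℓ ∤ N`, `φ` a Frobenius lift at `A`:

* `kumJ_kumTl`          : `kumJ (T_ℓ x) = heckeOperatorBar N ℓ (kumJ x)`  (the `T`-compatibility of
  the Kummer isomorphism, in the `kumTl` spelling of `GK/UQ/ESComm`);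
* `red_kumTl_sub`       : `red (kumJ (T_ℓ z − φ z − ℓ φ⁻¹ z)) = 0` for ALL `z`, any modulus `m`;
* **`red_gal_sub_kumTl`** : `red (kumJ (φ z − T_p z)) = 0` for `z ∈ Kum_p(F_N)` — step (1) of 6853
  VERBATIM (`m = ℓ = p`).
-/
import Fermat.Agent.GE8.RaiseP.RedAtP
import Fermat.Agent.GF.Shape.Plug
import Fermat.Agent.GK.UQ.ESComm
import Fermat.Agent.GZ.HeckeTors.Compat

set_option autoImplicit false
set_option linter.unusedSectionVars false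

noncomputable section

namespace Fermat.Agent.GE8.RaiseP.Deligne.ESp

open AlgebraicCurve ModularCurve
open Fermat.Agent.GJ.KumGroup Fermat.Agent.GJ.Kum.KumType
open Fermat.Agent.GF.Shape.Plug Fermat.Agent.GK.UQ Fermat.Agent.GZ.HeckeTors
open Fermat.Agent.GE8.RaiseP.RedAtP

local notation "Qb" => AlgebraicClosure ℚ
local notation "GQ" => (AlgebraicClosure ℚ ≃ₐ[ℚ] AlgebraicClosure ℚ)

variable (N : ℕ) [NeZero N] (m : ℕ) [NeZero m]

/-- the model operator of `GZ/HeckeTors` is `kumTl`. -/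
theorem Mm_T_eq_kumTl {ℓ : ℕ} (hℓ : ℓ.Prime) (hℓN : ¬ ℓ ∣ N) (x : Additive (Kum Qb (FK N) m)) :
    (Mm N m).T ℓ x = kumTl N m hℓ hℓN x := by
  obtain ⟨u, rfl⟩ := exists_rep (K := Qb) (F := FK N) (p := m) x
  exact (Mm_T_mk N m hℓ hℓN u).trans rfl

/-- **`T`-compatibility of the Kummer isomorphism**, `kumTl` spelling. -/
theorem kumJ_kumTl {ℓ : ℕ} (hℓ : ℓ.Prime) (hℓN : ¬ ℓ ∣ N) (x : Additive (Kum Qb (FK N) m)) :
    kumJ N m (kumTl N m hℓ hℓN x) = heckeOperatorBar N ⟨ℓ, hℓ⟩ (kumJ N m x) := by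
  have h1 : kumTl N m hℓ hℓN x = (Mm N m).T ℓ x := (Mm_T_eq_kumTl N m hℓ hℓN x).symm
  have h2 := coe_kumTorsionBy_T N m hℓ hℓN x
  rw [h1]
  exact h2

/-- **Eichler–Shimura AT `ℓ` on `Kum_m(F_N)`, full form** (any modulus `m`, `ℓ ∣ m` allowed):
`T_ℓ z − φ z − ℓ φ⁻¹ z` reduces to `0` at `A ∣ ℓ`, for every Frobenius lift `φ` at `A`. -/
theorem red_kumTl_sub {ℓ : ℕ} (hℓ : ℓ.Prime) (hℓN : ¬ ℓ ∣ N) (h2 : ℓ = 2 → 3 ∣ N)
    (h3 : ℓ = 3 → 2 ∣ N) (A : ValuationSubring Qb) (hA : A.LiesOverPrime ℓ) {φ : GQ}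
    (hφ : A.IsFrobeniusAt φ ℓ) (z : Additive (Kum Qb (FK N) m)) :
    reductionModL A N
      (kumJ N m (kumTl N m hℓ hℓN z - gal N m φ z - ℓ • gal N m φ⁻¹ z)) = 0 := by
  have h := reductionModL_hecke_sub N hℓ hℓN h2 h3 A hA hφ (kumJ N m z)
  have e : φ⁻¹ • (ℓ • kumJ N m z) = ℓ • (φ⁻¹ • kumJ N m z) :=
    map_nsmul (DistribSMul.toAddMonoidHom (JZero N) φ⁻¹) ℓ (kumJ N m z)
  have hk : kumJ N m (kumTl N m hℓ hℓN z - gal N m φ z - ℓ • gal N m φ⁻¹ z) =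
      heckeOperatorBar N ⟨ℓ, hℓ⟩ (kumJ N m z) - φ • kumJ N m z - φ⁻¹ • (ℓ • kumJ N m z) := by
    rw [map_sub, map_sub, map_nsmul, kumJ_kumTl, kumJ_gal, kumJ_gal, e]
  rw [hk]
  exact h

/-- **step (1) of helper25's route** (`m = ℓ = p`): `φ z − T_p z` reduces to `0` at `A ∣ p`, for
every `z ∈ Kum_p(F_N)` and every Frobenius lift `φ` at `A`. -/
theorem red_gal_sub_kumTl {p : ℕ} [NeZero p] (hp : p.Prime) (hpN : ¬ p ∣ N) (h2 : p = 2 → 3 ∣ N)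
    (h3 : p = 3 → 2 ∣ N) (A : ValuationSubring Qb) (hA : A.LiesOverPrime p) {φ : GQ}
    (hφ : A.IsFrobeniusAt φ p) (z : Additive (Kum Qb (FK N) p)) :
    reductionModL A N (kumJ N p (gal N p φ z - kumTl N p hp hpN z)) = 0 := by
  have hx : p • kumJ N p z = 0 := by
    have := smul_kumJ_eq_zero N p z
    rwa [natCast_zsmul] at this
  have h := reductionModL_hecke_of_torsion N hp hpN h2 h3 A hA hφ (kumJ N p z) hx
  have hk : kumJ N p (gal N p φ z - kumTl N p hp hpN z) =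
      φ • kumJ N p z - heckeOperatorBar N ⟨p, hp⟩ (kumJ N p z) := by
    rw [map_sub, kumJ_kumTl, kumJ_gal]
  rw [hk, map_sub, h, sub_self]

/-- the same as a membership: `φ z − T_p z ∈ ker (red ∘ kumJ)`. -/
theorem gal_sub_kumTl_mem_ker {p : ℕ} [NeZero p] (hp : p.Prime) (hpN : ¬ p ∣ N)
    (h2 : p = 2 → 3 ∣ N) (h3 : p = 3 → 2 ∣ N) (A : ValuationSubring Qb) (hA : A.LiesOverPrime p)
    {φ : GQ} (hφ : A.IsFrobeniusAt φ p) (z : Additive (Kum Qb (FK N) p)) :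
    gal N p φ z - kumTl N p hp hpN z ∈ ((reductionModL A N).comp (kumJ N p)).ker :=
  red_gal_sub_kumTl N hp hpN h2 h3 A hA hφ z

/-- the kernel of `red ∘ kumJ` on `Kum_m(F_N)` is stable under inertia at `A`. -/
theorem gal_mem_ker_of_inertia {ℓ : ℕ} (hℓ : ℓ.Prime) (hℓN : ¬ ℓ ∣ N) (h2 : ℓ = 2 → 3 ∣ N)
    (h3 : ℓ = 3 → 2 ∣ N) (A : ValuationSubring Qb) (hA : A.LiesOverPrime ℓ) {τ : GQ}
    (hτ : τ ∈ A.inertiaSubgroupIn ℚ) {z : Additive (Kum Qb (FK N) m)}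
    (hz : z ∈ ((reductionModL A N).comp (kumJ N m)).ker) :
    gal N m τ z ∈ ((reductionModL A N).comp (kumJ N m)).ker := by
  rw [AddMonoidHom.mem_ker, AddMonoidHom.comp_apply] at hz ⊢
  rw [kumJ_gal]
  exact reductionModL_eq_zero_smul_of_inertia N hℓ hℓN h2 h3 A hA hτ _ hz

/-- … and under Frobenius lifts and their inverses. -/
theorem gal_mem_ker_of_frobenius {ℓ : ℕ} (hℓ : ℓ.Prime) (hℓN : ¬ ℓ ∣ N) (h2 : ℓ = 2 → 3 ∣ N)
    (h3 : ℓ = 3 → 2 ∣ N) (A : ValuationSubring Qb) (hA : A.LiesOverPrime ℓ) {φ : GQ}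
    (hφ : A.IsFrobeniusAt φ ℓ) {z : Additive (Kum Qb (FK N) m)}
    (hz : z ∈ ((reductionModL A N).comp (kumJ N m)).ker) :
    gal N m φ z ∈ ((reductionModL A N).comp (kumJ N m)).ker ∧
      gal N m φ⁻¹ z ∈ ((reductionModL A N).comp (kumJ N m)).ker := by
  rw [AddMonoidHom.mem_ker, AddMonoidHom.comp_apply] at hz
  refine ⟨?_, ?_⟩
  · rw [AddMonoidHom.mem_ker, AddMonoidHom.comp_apply, kumJ_gal]
    exact reductionModL_eq_zero_smul_of_frobenius N hℓ hℓN h2 h3 A hA hφ _ hz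
  · rw [AddMonoidHom.mem_ker, AddMonoidHom.comp_apply, kumJ_gal]
    exact reductionModL_eq_zero_inv_smul_of_frobenius N hℓ hℓN h2 h3 A hA hφ _ hz

/-- inertia acts trivially modulo the kernel of `red ∘ kumJ`. -/
theorem gal_sub_mem_ker_of_inertia {ℓ : ℕ} (hℓ : ℓ.Prime) (hℓN : ¬ ℓ ∣ N) (h2 : ℓ = 2 → 3 ∣ N)
    (h3 : ℓ = 3 → 2 ∣ N) (A : ValuationSubring Qb) (hA : A.LiesOverPrime ℓ) {τ : GQ}
    (hτ : τ ∈ A.inertiaSubgroupIn ℚ) (z : Additive (Kum Qb (FK N) m)) :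
    gal N m τ z - z ∈ ((reductionModL A N).comp (kumJ N m)).ker := by
  have hk : kumJ N m (gal N m τ z - z) = τ • kumJ N m z - kumJ N m z := by
    rw [map_sub, kumJ_gal]
  rw [AddMonoidHom.mem_ker, AddMonoidHom.comp_apply, hk, map_sub,
    reductionModL_smul_of_inertia N hℓ hℓN h2 h3 A hA hτ, sub_self]

end Fermat.Agent.GE8.RaiseP.Deligne.ESp
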