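/-
GATE-E / E8.5 (i) DELIGNE-MODP, step (2) of helper25 (board 6853), DIRECT form (helper71):
**(NU) for the kernel of reduction on `J₀(N)[p]` at a level `N` prime to `p`.**

`p ∤ N` is good reduction at `p`, so the smooth frame of GATE-H (S19) applies at level `N` itself:
`GH.Inst.exists_frame_bar` gives `H : LSpaceHyp (redDataBar N A) g c`, `GH.L.coordSpec_main`,
`coordInj_main`, `chartSupply_main`, `GH.Top.addNode` are the four chart contracts,
`GH.Gal.Node.galNode` is the Galois frame (an inertia-fixed chart with equivariant coordinates).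
The abstract (NU) engine `GS/Loc2/HasCE.hasCE_of_charts` (the same one that
`GS/Top/FramePlug.hasCE_of_frameNode` uses at the nodal level) gives `HasCE` for the finite
`I_A`-stable subgroup `J₀(N)[p] ∩ KerRed H`.  The only modular input is

* `mem_KerRed_of_reductionModL_eq_zero` (LINK0): `reductionModL A N x = 0 ⟹ x ∈ GH.KerRed H`
  (the prelude's reduction map is computed by `rOf H_full`: `S37LevelOfLSpace.exists_inputs_uniq`,
  `S37Bridge.isPlaceReductionModL_rOf`; bar ↔ full by `S37BarToFull.transfer`).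

Main statement:

* `hasCE_kerRedTors` : `HasCE ↑I_A (σ • ·) (kerRedTors A N p)`,
  `kerRedTors A N p = {x : J₀(N) | p • x = 0 ∧ reductionModL A N x = 0}`.
-/
import Mathlib
import Fermat.Agent.GS.Loc2.HasCE
import Fermat.Agent.GS.Loc2.ChartsSmooth
import Fermat.Agent.GH.Gal.Node
import Fermat.Agent.GH.Top.AddPlug
import Fermat.Agent.GJ.S37.LevelOfLSpace

set_option autoImplicit false
set_option linter.unusedSectionVars false
set_option linter.unusedVariables false
set_option linter.style.haveILetI false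
set_option synthInstance.maxHeartbeats 400000
set_option maxHeartbeats 1000000

noncomputable section

open AlgebraicCurve ModularCurve

namespace Fermat.Agent.GE8.RaiseP.Deligne.KerNU

open Fermat.Agent.RRh45 Fermat.Agent.GJ.S37MinDiv Fermat.Agent.GJ.J1 Fermat.Agent.GJ.J1.Val
  Fermat.Agent.GJ.S37LSpace Fermat.Agent.GJ.S37ROfSurj Fermat.Agent.GH Fermat.Agent.GH.Inst
  Fermat.Agent.GH.Top Fermat.Agent.GS.Old Fermat.Agent.GS.Loc2 Fermat.Agent.GS.Loc2.Smooth

local notation "Qb" => AlgebraicClosure ℚ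
local notation "GQ" => (AlgebraicClosure ℚ ≃ₐ[ℚ] AlgebraicClosure ℚ)

/-! ### LINK0 : the kernel of the prelude's reduction map lies in `KerRed H` -/

section Link0

open Fermat.Agent.GJ.S37Bridge Fermat.Agent.GJ.S37BarToFull
open Fermat.Agent.GJ.FibreCurve Fermat.Agent.GJ.FF.Fibre Fermat.Agent.S24

/-- **LINK0**: a class killed by the prelude's reduction map `reductionModL A N` has principal
reduction in the frame `redDataBar N A` of GATE-H. -/
theorem mem_KerRed_of_reductionModL_eq_zero {N : ℕ} [NeZero N] {A : ValuationSubring Qb} {p : ℕ}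
    (hp : p.Prime) (hpN : ¬ p ∣ N) (hA : A.LiesOverPrime p) {g c : ℤ}
    (H : LSpaceHyp (redDataBar N A) g c) :
    haveI := finiteResidues_bar N
    haveI := finiteResidues_fresBar N A
    haveI := hasPrincipalDivisors_fresBar N A
    haveI := nonempty_place_fresBar N A
    haveI := infinite_kA A
    ∀ x : JZero N, reductionModL A N x = 0 → x ∈ KerRed H := by
  have i1 := finiteResidues_bar N
  have i2 := finiteResidues_fresBar N A
  have i3 := hasPrincipalDivisors_fresBar N A
  have i4 := nonempty_place_fresBar N A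
  have i5 := infinite_kA A
  intro x hx
  have hF : Fact p.Prime := ⟨hp⟩
  obtain ⟨h, huniq⟩ := Fermat.Agent.GJ.S37LevelOfLSpace.exists_inputs_uniq hp hpN hA H
  have hle := Res.FresBar_le_fullC N A hpN hA
  have hEq := Res.FresBar_eq_fullC N A hpN hA
  obtain ⟨D, rfl⟩ := Pic0.mk_surjective x
  rw [reductionModL_mk h D] at hx
  have hprin : Divisor.IsPrincipal (Finsupp.mapDomain (placeReductionModL h)
      (D : Divisor Qb (modularFunctionFieldBar N))) := by
    have h1 := (QuotientAddGroup.eq_zero_iff _).1 hx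
    exact h1
  have j2 := finiteResidues_fibre (k := IsLocalRing.ResidueField A) N A (IsLocalRing.residue A)
  have j3 := hasPrincipalDivisors_fibre' (k := IsLocalRing.ResidueField A) N A
    (IsLocalRing.residue A)
  have j4 := nonempty_place_fibre' (k := IsLocalRing.ResidueField A) N A (IsLocalRing.residue A)
  -- the transport principle bar → full
  have key := transfer (N := N) (A := A)
    (fun E R => ∀ [FiniteResidues (IsLocalRing.ResidueField A) E]
      [HasPrincipalDivisors (IsLocalRing.ResidueField A) E]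
      [Nonempty (Place (IsLocalRing.ResidueField A) E)] (H' : LSpaceHyp R g c),
      Divisor.IsPrincipal (Finsupp.mapDomain (rOf H')
        (D : Divisor Qb (modularFunctionFieldBar N))) → Pic0.mk D ∈ KerRed H) hEq hle
    (fun H' hD => ⟨D, rfl, hD⟩)
  have Hfull : LSpaceHyp (redDataFull N A hle) g c := exists_lSpaceHyp_full hpN hA H
  have hr : IsPlaceReductionModL A N (rOf Hfull) := isPlaceReductionModL_rOf hle Hfull
  have hr' : rOf Hfull = placeReductionModL h := huniq _ hr
  refine key Hfull ?_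
  rw [← hr'] at hprin
  exact hprin

end Link0

/-! ### the subgroup and the main statement -/

/-- the `p`-torsion classes of `J₀(N)` killed by the reduction map at `A`. -/
def kerRedTors (A : ValuationSubring Qb) (N p : ℕ) : AddSubgroup (JZero N) where
  carrier := {x | p • x = 0 ∧ reductionModL A N x = 0}
  zero_mem' := ⟨smul_zero _, map_zero _⟩
  add_mem' := fun {x y} hx hy =>
    ⟨by rw [nsmul_add, hx.1, hy.1, add_zero], by rw [map_add, hx.2, hy.2, add_zero]⟩
  neg_mem' := fun {x} hx => ⟨by rw [neg_nsmul, hx.1, neg_zero], by rw [map_neg, hx.2, neg_zero]⟩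

theorem mem_kerRedTors {A : ValuationSubring Qb} {N p : ℕ} {x : JZero N} :
    x ∈ kerRedTors A N p ↔ p • x = 0 ∧ reductionModL A N x = 0 := Iff.rfl

/-- **(NU) for the kernel of reduction on `J₀(N)[p]`, `p ∤ N`** (`p` odd; `p = 3` needs `2 ∣ N`). -/
theorem hasCE_kerRedTors {p N : ℕ} [NeZero N] (hp : p.Prime) (hp2 : p ≠ 2) (hpN : ¬ p ∣ N)
    (h3 : p = 3 → 2 ∣ N) (A : ValuationSubring Qb) (hA : A.LiesOverPrime p) :
    HasCE (↑(A.inertiaSubgroupIn ℚ) : Set GQ) (fun (σ : GQ) (x : JZero N) => σ • x)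
      (kerRedTors A N p) := by
  have hF : Fact p.Prime := ⟨hp⟩
  have h2 : p = 2 → 3 ∣ N := fun h => absurd h hp2
  obtain ⟨g, c, n, H, hn⟩ := exists_frame_bar N A hp hpN h2 h3 hA
  have i1 := finiteResidues_bar N
  have i2 := finiteResidues_fresBar N A
  have i3 := hasPrincipalDivisors_fresBar N A
  have i4 := nonempty_place_fresBar N A
  have i5 := infinite_kA A
  obtain ⟨G⟩ := Fermat.Agent.GH.Gal.Node.galNode p N A hA hpN h2 h3 g c H n hn
  have hadd : AddSpec H n := addNode N A hA hpN h2 h3 g c H n hn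
  have hodd : Odd p := hp.odd_of_ne_two hp2
  obtain ⟨𝔠₀, h𝔠₀⟩ := G.exists_fix
  -- the bigger subgroup `J₀(N)[p] ∩ KerRed H`
  let K' : AddSubgroup (JZero N) :=
    kerRedSubgroup H ⊓ (Submodule.torsionBy ℤ (JZero N) (p : ℤ)).toAddSubgroup
  have hK'p : ∀ w ∈ K', p • w = 0 := fun w hw => by
    have h1 : (p : ℤ) • w = 0 := (Submodule.mem_torsionBy_iff _ _).1 hw.2
    rwa [natCast_zsmul] at h1
  have hfin : Finite ↥K' := by
    have hfin0 : Finite (Submodule.torsionBy ℤ (JZero N) (p : ℤ)) :=
      Fermat.Agent.GH.TorsionLevel.finite_torsionBy N p hp.ne_zero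
    let j : ↥K' → ↥(Submodule.torsionBy ℤ (JZero N) (p : ℤ)) := fun x => ⟨(x : JZero N), x.2.2⟩
    refine Finite.of_injective j ?_
    intro a b hab
    exact Subtype.ext (congrArg (fun z : ↥(Submodule.torsionBy ℤ (JZero N) (p : ℤ)) =>
      (z : JZero N)) hab)
  have hst : ∀ σ ∈ (↑(A.inertiaSubgroupIn ℚ) : Set GQ), ∀ x ∈ K',
      (fun (σ : GQ) (x : JZero N) => σ • x) σ x ∈ K' := fun σ hσ x hx => by
    refine ⟨G.ker_smul σ (G.hID hσ) x hx.1, ?_⟩
    have h1 : (p : ℤ) • x = 0 := (Submodule.mem_torsionBy_iff _ _).1 hx.2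
    refine (Submodule.mem_torsionBy_iff _ _).2 ?_
    show (p : ℤ) • (σ • x) = 0
    rw [smul_comm, h1]
    exact smul_zero (A := JZero N) σ
  have hK' : HasCE (↑(A.inertiaSubgroupIn ℚ) : Set GQ) (fun (σ : GQ) (x : JZero N) => σ • x)
      K' := by
    refine hasCE_of_charts A hp hA hodd
      (coordSpecA_of (Fermat.Agent.GH.L.coordSpec_main H hn))
      (coordInjA_of (Fermat.Agent.GH.L.coordInj_main H n))
      (chartSupplyA_of (Fermat.Agent.GH.L.chartSupply_main H hn.le))
      (addSpecA_of hadd) (fun 𝔠 => isCoord_zero 𝔠)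
      (fun σ _ x y => smul_add σ x y) hst ?_ hK'p K'.subtype
      (AddSubgroup.subtype_injective _) (fun x => x.2.1) 𝔠₀ ?_
    · intro σ hσ x hx
      exact ⟨σ⁻¹ • x, hst σ⁻¹ (inv_mem hσ) x hx, smul_inv_smul σ x⟩
    · intro σ x τ hτ
      have h1 := G.isCoord_smul σ.1 (G.hID σ.2) 𝔠₀ x.1 τ hτ
      rw [G.fix_inertia 𝔠₀ h𝔠₀ σ.1 σ.2] at h1
      exact h1
  intro Nn hN w hw hwN
  exact hK' Nn hN w ⟨mem_KerRed_of_reductionModL_eq_zero hp hpN hA H w hw.2,
    (Submodule.mem_torsionBy_iff _ _).2 (by rw [natCast_zsmul]; exact hw.1)⟩ hwN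

end Fermat.Agent.GE8.RaiseP.Deligne.KerNU
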