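/-
GATE-E / E8.5 (i) DELIGNE-MODP, step (2) of helper25 (board 6853) in the `Kum` vocabulary (helper71):
**(NU) for `K = ker (red_A ∘ kumJ) ⊆ Kum_p(F_N)`**, the subgroup of helper80's `Deligne/ESp.lean`
(`gal_sub_kumTl_mem_ker : φ z − T_p z ∈ ((reductionModL A N).comp (kumJ N p)).ker`), in the EXACT
shape of the binder `hK` of helper25's `Deligne/Abs.eq_smul_one_of_hasCE` / `eq_smul_one_of_line`.

* `hasCE_comap`     : `HasCE` pulls back along an injective equivariant additive map;
* `HasCE.mono`      : `HasCE` is monotone in the subgroup;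
* `hasCE_ker_red_kumJ` : `HasCE ↑I_A (fun σ z => gal N p σ z) ((reductionModL A N).comp (kumJ N p)).ker`
  (`p` odd, `p ∤ N`, `p = 3 → 2 ∣ N`, `A ∣ p`), from `KerNU.hasCE_kerRedTors`.
-/
import Mathlib
import Fermat.Agent.GE8.RaiseP.Deligne.KerNU
import Fermat.Agent.GF.Shape.Plug

set_option autoImplicit false
set_option linter.unusedSectionVars false

noncomputable section

namespace Fermat.Agent.GE8.RaiseP.Deligne.KerNUKum

open AlgebraicCurve ModularCurve
open Fermat.Agent.GS.Old Fermat.Agent.GJ.KumGroup Fermat.Agent.GJ.Kum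
open Fermat.Agent.GF.Shape.Plug Fermat.Agent.GE8.RaiseP.Deligne.KerNU

local notation "Qb" => AlgebraicClosure ℚ
local notation "GQ" => (AlgebraicClosure ℚ ≃ₐ[ℚ] AlgebraicClosure ℚ)

section Abstract

variable {G : Type*} {M M' : Type*} [AddCommGroup M] [AddCommGroup M']

/-- `HasCE` is monotone in the subgroup. -/
theorem hasCE_mono {I : Set G} {act : G → M → M} {W W' : AddSubgroup M} (h : W' ≤ W)
    (hW : HasCE I act W) : HasCE I act W' :=
  fun N hN w hw hwN => hW N hN w (h hw) hwN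

/-- `HasCE` pulls back along an injective additive map which is equivariant for the operators
of `I`. -/
theorem hasCE_comap {I : Set G} {act : G → M → M} {act' : G → M' → M'} {W : AddSubgroup M}
    (j : M' →+ M) (hj : Function.Injective j)
    (heq : ∀ g ∈ I, ∀ x, j (act' g x) = act g (j x)) (hW : HasCE I act W) :
    HasCE I act' (W.comap j) := by
  intro N hN w hw hwN
  have hst : ∀ g ∈ I, ∀ u ∈ N.map j, act g u ∈ N.map j := by
    rintro g hg _ ⟨u', hu', rfl⟩
    exact ⟨act' g u', hN g hg u' hu', heq g hg u'⟩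
  have h1 : j w ∈ N.map j := by
    refine hW (N.map j) hst (j w) hw fun g hg => ?_
    exact ⟨act' g w - w, hwN g hg, by rw [map_sub, heq g hg]⟩
  obtain ⟨w', hw', hww'⟩ := h1
  rwa [← hj hww']

end Abstract

/-- **(NU) for the kernel of reduction on `Kum_p(F_N)`, `p ∤ N`** — the binder `hK` of
`Deligne/Abs.eq_smul_one_of_hasCE` for `K = ker (red_A ∘ kumJ)`, `act = KumType.gal N p`. -/
theorem hasCE_ker_red_kumJ {p N : ℕ} [NeZero N] [NeZero p] (hp : p.Prime) (hp2 : p ≠ 2)
    (hpN : ¬ p ∣ N) (h3 : p = 3 → 2 ∣ N) (A : ValuationSubring Qb) (hA : A.LiesOverPrime p) :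
    HasCE (↑(A.inertiaSubgroupIn ℚ) : Set GQ)
      (fun (σ : GQ) (z : Additive (Kum Qb (FK N) p)) => KumType.gal N p σ z)
      ((reductionModL A N).comp (kumJ N p)).ker := by
  have h1 : HasCE (↑(A.inertiaSubgroupIn ℚ) : Set GQ)
      (fun (σ : GQ) (z : Additive (Kum Qb (FK N) p)) => KumType.gal N p σ z)
      ((kerRedTors A N p).comap (kumJ N p)) :=
    hasCE_comap (kumJ N p) (kumJ_injective N p) (fun σ _ x => kumJ_gal N p σ x)
      (hasCE_kerRedTors hp hp2 hpN h3 A hA)
  refine hasCE_mono ?_ h1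
  intro z hz
  rw [AddMonoidHom.mem_ker, AddMonoidHom.comp_apply] at hz
  refine ⟨?_, hz⟩
  have h2 := smul_kumJ_eq_zero N p z
  rwa [natCast_zsmul] at h2

end Fermat.Agent.GE8.RaiseP.Deligne.KerNUKum
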